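import Fermat.Agent.RT.Two.Local.Classes

/-!
# The local cup products at two vanish

The trace pairing of two classes in the local condition is a coboundary on the decomposition
group: each component of the classes spans a line modulo coboundaries, and the cup square of a
class is the coboundary of its determinant, corrected on the scalar part by a lift of the
unramified character to `ℤ/4`.
-/

set_option autoImplicit false
set_option linter.style.haveILetI false
set_option linter.unusedSectionVars false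

noncomputable section

namespace Fermat.Agent.RT.Two.Local

open Fermat.Agent.Deform Fermat.Agent.Arith Fermat.Agent.CFT.Tangent Fermat.Agent.CFT.Flat Matrix

instance : Fact (Nat.Prime 5) := ⟨by norm_num⟩

/-- The parity of the logarithm to the base two modulo five. -/
def logParity : Fin 5 → ZMod 2 := ![0, 0, 1, 1, 0]

/-- The second digit of the logarithm to the base two modulo five. -/
def logDigit : Fin 5 → ZMod 2 := ![0, 0, 0, 1, 1]

theorem log_rules : ∀ a b : ZMod 5, a ≠ 0 → b ≠ 0 →
    logParity (a * b) = logParity a + logParity b ∧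
      logDigit (a * b) = logDigit a + logDigit b + logParity a * logParity b := by decide

/-- The unramified character of order two at two with its lift to `ℤ/4`. -/
theorem exists_unramified {τ φ : GQ} (P : IsPair τ φ) :
    ∃ (u β : GQ → ZMod 2) (L : IntermediateField ℚ QBar), FiniteDimensional ℚ L ∧
      (∀ g h, u (g * h) = u g + u h) ∧ (∀ g h, β (g * h) = β g + β h + u g * u h) ∧
      u φ = 1 ∧ (∀ g ∈ inG 2, u g = 0) ∧
      ∀ g h, (∀ x ∈ L, h x = x) → u (g * h) = u g ∧ β (g * h) = β g := by
  set ζ := zp 5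
  have hζ : IsPrimitiveRoot ζ 5 := zp_spec 5
  set χ := hζ.autToPow ℚ
  have hne : ∀ g : GQ, (χ g : ZMod 5) ≠ 0 := fun g => (χ g).ne_zero
  have hspec : ∀ g : GQ, ζ ^ (χ g : ZMod 5).val = g ζ := fun g => hζ.autToPow_spec ℚ g
  have hfix : ∀ g : GQ, g ζ = ζ → χ g = 1 := fun g hg => by
    refine Units.ext ?_
    have h := hζ.pow_inj (ZMod.val_lt _) (show 1 < 5 by norm_num) (by rw [hspec, hg, pow_one])
    rw [Units.val_one, ← ZMod.natCast_zmod_val (χ g : ZMod 5), h, Nat.cast_one]
  haveI : FiniteDimensional ℚ (IntermediateField.adjoin ℚ {ζ}) :=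
    IntermediateField.adjoin.finiteDimensional (Algebra.IsIntegral.isIntegral ζ)
  refine ⟨fun g => logParity (χ g : ZMod 5), fun g => logDigit (χ g : ZMod 5),
    IntermediateField.adjoin ℚ {ζ}, inferInstance,
    fun g h => by simpa using (log_rules _ _ (hne g) (hne h)).1,
    fun g h => by simpa using (log_rules _ _ (hne g) (hne h)).2, ?_, fun g hg => ?_,
    fun g h hh => ?_⟩
  · have h2 := map_root_of_frobenius 2 P.frob (m := 5) (by norm_num) hζ.pow_eq_one (by norm_num)
    have h := hζ.pow_inj (ZMod.val_lt _) (show 2 < 5 by norm_num) (by rw [hspec, h2])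
    show logParity (χ φ : ZMod 5) = 1
    rw [← ZMod.natCast_zmod_val (χ φ : ZMod 5), h]
    rfl
  · have h : χ g = 1 := hfix g (root_congr (CFT.Local.padicPlace_liesOverPrime 2) Nat.prime_two (m := 5)
      (by rw [← map_pow, hζ.pow_eq_one, map_one]) hζ.pow_eq_one (by norm_num)
      ((mem_nonunits_iff 2).mpr (nrm_sub_lt_one_of_mem_inG 2 hg
        (nrm_root 2 (by norm_num) hζ.pow_eq_one).le)))
    show logParity (χ g : ZMod 5) = 0
    rw [h]
    rfl
  · have h1 := hfix h (hh ζ (IntermediateField.mem_adjoin_simple_self ℚ ζ))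
    simp only [map_mul, h1, mul_one, and_self]

variable {k : Type} [Field k] [Algebra (ZMod 2) k]

theorem IsLocalCobd.congr {z z' : GQ → GQ → k} (h : IsLocalCobd z)
    (e : ∀ g ∈ decG 2, ∀ g' ∈ decG 2, z g g' = z' g g') : IsLocalCobd z' := by
  obtain ⟨f, hf, hz⟩ := h
  exact ⟨f, hf, fun g hg g' hg' => by rw [← e g hg g' hg', hz g hg g' hg']⟩

theorem IsLocalCobd.add {z z' : GQ → GQ → k} (h : IsLocalCobd z) (h' : IsLocalCobd z') :
    IsLocalCobd fun g g' => z g g' + z' g g' := by
  obtain ⟨f, ⟨L, hL, hf⟩, hz⟩ := h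
  obtain ⟨f', ⟨L', hL', hf'⟩, hz'⟩ := h'
  refine ⟨fun g => f g + f' g,
    ⟨L ⊔ L', IntermediateField.finiteDimensional_sup L L', fun g hg h hh e => ?_⟩,
    fun g hg g' hg' => ?_⟩
  · dsimp only
    rw [hf g hg h hh fun x hx => e x ((le_sup_left : L ≤ L ⊔ L') hx),
      hf' g hg h hh fun x hx => e x ((le_sup_right : L' ≤ L ⊔ L') hx)]
  · dsimp only
    rw [hz g hg g' hg', hz' g hg g' hg']
    ring

theorem IsLocalCobd.const_mul {z : GQ → GQ → k} (h : IsLocalCobd z) (a : k) :
    IsLocalCobd fun g g' => a * z g g' := by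
  obtain ⟨f, ⟨L, hL, hf⟩, hz⟩ := h
  exact ⟨fun g => a * f g, ⟨L, hL, fun g hg h hh e => by simp only [hf g hg h hh e]⟩,
    fun g hg g' hg' => by simp only [hz g hg g' hg']; ring⟩

theorem det_add_two (X Y : M2 k) :
    (X + Y).det = X.det + Y.det + X.trace * Y.trace - (X * Y).trace := by
  simp only [Matrix.det_fin_two, Matrix.trace_fin_two, Matrix.mul_apply, Matrix.add_apply,
    Fin.sum_univ_two]
  ring

section Basic

variable {r : GQ →* M2 k} {c d : GQ → M2 k}

theorem level_of_cocycle (hc : IsAdCocycle r c) {g h : GQ} (hh : c h = 0) : c (g * h) = c g := by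
  rw [hc g h, hh]; simp

theorem cobd_left (hd : IsAdCocycle r d) (hfin : IsFiniteLevel d) (Y : M2 k) :
    IsLocalCobd (cup r (cobdLin r Y) d) := by
  obtain ⟨L, hL, hd0⟩ := hfin
  refine ⟨fun g => (Y * d g).trace,
    ⟨L, hL, fun g _ h _ e => by simp only [level_of_cocycle hd (hd0 h e)]⟩, fun g _ h _ => ?_⟩
  have e1 : (r g * Y * r g⁻¹ * (r g * d h * r g⁻¹)).trace = (Y * d h).trace := by
    rw [show r g * Y * r g⁻¹ * (r g * d h * r g⁻¹) = r g * Y * (r g⁻¹ * r g) * d h * r g⁻¹ by
      simp only [mul_assoc], CFT.Tangent.map_inv_mul, mul_one, mul_assoc (r g) Y,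
      CFT.Tangent.trace_conj_map]
  dsimp only
  rw [cup, cobdLin_apply, sub_mul, Matrix.trace_sub, e1, hd g h, mul_add Y, Matrix.trace_add]
  ring

theorem cobd_right (hc : IsAdCocycle r c) (hfin : IsFiniteLevel c)
    (hr : GaloisFactorsThroughFiniteLevel r) (X : M2 k) :
    IsLocalCobd (cup r c (cobdLin r X)) := by
  obtain ⟨L, hL, hc0⟩ := hfin
  obtain ⟨L', hL', hr'⟩ := hr
  refine ⟨fun g => -(c g * (r g * X * r g⁻¹)).trace,
    ⟨L ⊔ L', IntermediateField.finiteDimensional_sup L L', fun g _ h _ e => ?_⟩,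
    fun g _ h _ => ?_⟩
  · have e1 : r h = 1 := hr' h fun x hx => e x ((le_sup_right : L' ≤ L ⊔ L') hx)
    have e2 : r h⁻¹ = 1 := by simpa [e1] using CFT.Tangent.map_inv_mul r h
    simp only [level_of_cocycle hc (hc0 h fun x hx => e x ((le_sup_left : L ≤ L ⊔ L') hx)), map_mul,
      _root_.mul_inv_rev, e1, e2, mul_one, one_mul]
  · have e3 : r (g * h) * X * r (g * h)⁻¹ = r g * (r h * X * r h⁻¹) * r g⁻¹ := by
      simp only [map_mul, _root_.mul_inv_rev, mul_assoc]
    have e4 : (r g * c h * r g⁻¹ * (r g * (r h * X * r h⁻¹) * r g⁻¹)).trace =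
        (c h * (r h * X * r h⁻¹)).trace := by
      rw [show r g * c h * r g⁻¹ * (r g * (r h * X * r h⁻¹) * r g⁻¹) =
          r g * c h * (r g⁻¹ * r g) * (r h * X * r h⁻¹) * r g⁻¹ by simp only [mul_assoc],
        CFT.Tangent.map_inv_mul, mul_one, mul_assoc (r g) (c h), CFT.Tangent.trace_conj_map]
    dsimp only
    rw [cup, cobdLin_apply, e3, hc g h, mul_sub, sub_mul, mul_sub, Matrix.trace_sub, add_mul,
      Matrix.trace_add, e4]
    ring

theorem cobd_square (hc : IsAdCocycle r c) (hfin : IsFiniteLevel c) :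
    IsLocalCobd fun g h => cup r c c g h - (c g).trace * (c h).trace := by
  obtain ⟨L, hL, hc0⟩ := hfin
  refine ⟨fun g => (c g).det,
    ⟨L, hL, fun g _ h _ e => by simp only [level_of_cocycle hc (hc0 h e)]⟩, fun g _ h _ => ?_⟩
  have e1 : (r g * c h * r g⁻¹).det = (c h).det := by
    have := congrArg Matrix.det (CFT.Tangent.map_mul_inv r g)
    rw [Matrix.det_mul, Matrix.det_one] at this
    rw [Matrix.det_mul, Matrix.det_mul]
    linear_combination (c h).det * this
  dsimp only
  rw [hc g h, det_add_two, e1, CFT.Tangent.trace_conj_map, cup, Matrix.trace_mul_comm (c g)]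
  ring

end Basic

theorem restHom_smul (s X : M2 k) (a : k) : restHom s (a • X) = a • restHom s X := by
  rw [restHom_apply, restHom_apply, component_smul, smul_add]

variable {r₀ : GQ →* M2 (ZMod 2)} (hr : IsSupersingularTwo r₀) {τ φ : GQ} (P : IsPair τ φ)

local notation "ρ" => extRep k r₀

include hr in
theorem finite_extRep : GaloisFactorsThroughFiniteLevel (extRep k r₀) := by
  obtain ⟨L, hL, h⟩ := hr.finite
  exact ⟨L, hL, fun σ hσ => extRep_eq_one (h σ hσ)⟩

include hr P in
theorem cobd_line {c d : GQ → M2 k} (hc : IsAdCocycle ρ c) (hcf : IsFiniteLevel c)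
    (hsq : IsLocalCobd (cup ρ c c)) (a : k) (Y : M2 k)
    (hd : ∀ g ∈ decG 2, d g = a • c g + cobdLin ρ Y g) : IsLocalCobd (cup ρ c d) := by
  refine ((hsq.const_mul a).add (cobd_right hc hcf (finite_extRep hr) Y)).congr
    fun g _ h hh => ?_
  simp only [cup, hd h hh, mul_add, add_mul, Matrix.trace_add, mul_smul_comm, smul_mul_assoc,
    Matrix.trace_smul, smul_eq_mul]

include hr P in
theorem cobd_rest [Finite k] {c d : GQ → M2 k} (hc : c ∈ localTwo ρ) (hd : d ∈ localTwo ρ) :
    IsLocalCobd (cup ρ (fun g => restHom (ρ τ) (c g)) fun g => restHom (ρ τ) (d g)) := by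
  have hs := hr.sq_add_ext (k := k) P.gen
  obtain ⟨v, hv⟩ := exists_slotVec hr P hc
  obtain ⟨w, hw⟩ := exists_slotVec hr P hd
  have hcQ := isAdCocycle_rest hr P hc.1
  have hdQ := isAdCocycle_rest hr P hd.1
  rcases eq_or_ne v 0 with rfl | hv0
  · obtain ⟨Y, hY⟩ := rest_eq_cobd hr P hc fun g hg => by
      simpa using eq_zero_tame_of_slotVec hr P hc hd hv hw (a := 1) (b := 0) (by ring) hg
    refine (cobd_left hdQ (isFiniteLevel_comp hd.2.1 _) Y).congr fun g hg h _ => ?_
    simp only [cup, hY g hg]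
  · set a := w / v
    have he : (-a) • c + (1 : k) • d ∈ localTwo ρ :=
      add_mem (Submodule.smul_mem _ _ hc) (Submodule.smul_mem _ _ hd)
    obtain ⟨Y, hY⟩ := rest_eq_cobd hr P he fun g hg => eq_zero_tame_of_slotVec hr P hc hd hv hw
      (by simp only [a]; field_simp; ring) hg
    refine cobd_line hr P hcQ (isFiniteLevel_comp hc.2.1 _) ?_ a Y fun g hg => ?_
    · exact (cobd_square hcQ (isFiniteLevel_comp hc.2.1 _)).congr fun g _ h _ => by
        rw [trace_restHom hs, zero_mul, sub_zero]
    · rw [← hY g hg]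
      rw [Pi.add_apply, Pi.smul_apply, Pi.smul_apply, one_smul, map_add, restHom_smul, neg_smul]
      abel

include hr P in
theorem cobd_component [Finite k] {c d : GQ → M2 k} (hc : c ∈ localTwo ρ) (hd : d ∈ localTwo ρ) :
    IsLocalCobd (cup ρ (fun g => component (ρ τ) (c g)) fun g => component (ρ τ) (d g)) := by
  have hs := hr.sq_add_ext (k := k) P.gen
  have hcC := isAdCocycle_comp hr P hc.1
  have hcCf : IsFiniteLevel fun g => component (ρ τ) (c g) :=
    isFiniteLevel_comp hc.2.1 (compHom (ρ τ))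
  have hdC := isAdCocycle_comp hr P hd.1
  set v := (c φ).trace
  rcases eq_or_ne v 0 with hv | hv
  · obtain ⟨Y, hY⟩ := component_eq_cobd hr P hc hv
    refine (cobd_left hdC (isFiniteLevel_comp hd.2.1 (compHom (ρ τ))) Y).congr fun g hg h _ => ?_
    simp only [cup, hY g hg]
  · set a := (d φ).trace / v
    have he : (-a) • c + d ∈ localTwo ρ := add_mem (Submodule.smul_mem _ _ hc) hd
    obtain ⟨Y, hY⟩ := component_eq_cobd hr P he (by
      rw [Pi.add_apply, Pi.smul_apply, Matrix.trace_add, Matrix.trace_smul, smul_eq_mul]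
      simp only [a]; field_simp; ring)
    refine cobd_line hr P hcC hcCf ?_ a Y fun g hg => ?_
    · obtain ⟨u, β, L, hL, hu, hβ, huφ, hu0, hlev⟩ := exists_unramified P
      have htr : ∀ g ∈ decG 2,
          (component (ρ τ) (c g)).trace = v * algebraMap (ZMod 2) k (u g) := by
        intro g hg
        obtain ⟨Lc, hLc, hc0⟩ := hc.2.1
        haveI := hLc; haveI := hL
        haveI : FiniteDimensional ℚ (Lc ⊔ L : IntermediateField ℚ QBar) :=
          IntermediateField.finiteDimensional_sup Lc L
        have hu1 : u 1 = 0 := add_eq_left.mp ((hu 1 1).symm.trans (by rw [one_mul]))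
        refine forall_decG P (Q := fun g =>
          (component (ρ τ) (c g)).trace = v * algebraMap (ZMod 2) k (u g))
          (fun x _ y _ ex ey => ?_) ?_ ?_ (fun x hx => ?_) (Lc ⊔ L) (fun x _ hx => ?_) hg
        · have hxy := hcC x y
          dsimp only at hxy
          rw [hxy, Matrix.trace_add, CFT.Tangent.trace_conj_map, ex, ey, hu, map_add]
          ring
        · rw [hc.1.one, ← compHom_apply, map_zero, hu1, map_zero, mul_zero, Matrix.trace_zero]
        · rw [trace_component hs, huφ, map_one, mul_one]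
        · rw [component_inG hr P hc hx, hu0 x hx, map_zero, mul_zero, Matrix.trace_zero]
        · rw [hc0 x fun y hy => hx y ((le_sup_left : Lc ≤ Lc ⊔ L) hy),
            ← one_mul x, (hlev 1 x fun y hy => hx y ((le_sup_right : L ≤ Lc ⊔ L) hy)).1, hu1,
            map_zero, mul_zero, ← compHom_apply, map_zero, Matrix.trace_zero]
      have hβc : IsLocalCobd fun g h =>
          v * v * algebraMap (ZMod 2) k (u g * u h) := by
        refine ⟨fun g => v * v * algebraMap (ZMod 2) k (β g),
          ⟨L, hL, fun g _ h _ e => by simp only [(hlev g h e).2]⟩, fun g _ h _ => ?_⟩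
        dsimp only
        rw [hβ, map_add, map_add]
        linear_combination v * v * algebraMap (ZMod 2) k (u g * u h) * two_eq_zero' (k := k)
      refine ((cobd_square hcC hcCf).add hβc).congr fun g hg h hh => ?_
      rw [htr g hg, htr h hh, map_mul]
      ring
    · rw [← hY g hg]
      rw [Pi.add_apply, Pi.smul_apply, ← compHom_apply (ρ τ) (-a • c g + d g), map_add,
        compHom_apply, compHom_apply, component_smul, neg_smul]
      abel

include hr in
/-- **The cup product of two classes in the local condition is a local coboundary.** -/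
theorem isLocalCobd_cup [Finite k] {c d : GQ → M2 k} (hc : c ∈ localTwo ρ) (hd : d ∈ localTwo ρ) :
    IsLocalCobd (cup ρ c d) := by
  obtain ⟨τ, φ, P⟩ := exists_isPair
  have hs := hr.sq_add_ext (k := k) P.gen
  refine ((cobd_component hr P hc hd).add (cobd_rest hr P hc hd)).congr fun g _ h _ => ?_
  have hsplit : ∀ X : M2 k, X = component (ρ τ) X + restHom (ρ τ) X := fun X => by
    rw [restHom_apply, ← add_assoc, add_right_comm, add_self_zero, zero_add]
  set Z := ρ g * d h * ρ g⁻¹ with hZ
  have h1 : (component (ρ τ) (c g) * restHom (ρ τ) Z).trace = 0 := by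
    rw [trace_component_mul, component_restHom hs, mul_zero, Matrix.trace_zero]
  have h2 : (restHom (ρ τ) (c g) * component (ρ τ) Z).trace = 0 := by
    rw [← trace_component_mul, component_restHom hs, zero_mul, Matrix.trace_zero]
  simp only [cup, ← component_ad hr P, ← restHom_ad hr P, ← hZ]
  conv_rhs => rw [hsplit (c g), hsplit Z]
  rw [add_mul, mul_add, mul_add, Matrix.trace_add, Matrix.trace_add, Matrix.trace_add, h1, h2,
    add_zero, zero_add]

end Fermat.Agent.RT.Two.Local
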