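import Fermat.Agent.RT.Two.Local.Deep
import Fermat.Agent.RT.Two.Local.Cup
import Fermat.Agent.CFT.Flat.NormalForm
import Mathlib.FieldTheory.Finite.GaloisField

/-!
# The local condition at two

`mem_localTwo_of_flat`, `component_eq_zero_of_mem` and `isLocalCobd_cup` are proved in `Deep`,
`Classes` and `Cup`; here the residual hypothesis is derived from the image of the decomposition
group.
-/

set_option autoImplicit false
set_option linter.style.haveILetI false
set_option linter.unusedSectionVars false

noncomputable section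

namespace Fermat.Agent.RT.Two.Local

open Fermat.Agent.Deform Fermat.Agent.Arith Fermat.Agent.CFT.Flat Matrix

theorem commutator_det : ∀ S T : M2 (ZMod 2), S.trace = 1 → S.det = 1 → T.trace = 0 → T.det = 1 →
    T ≠ 1 → (S * T - T * S).det = 1 := by decide

theorem unit_zmod_two : ∀ x : ZMod 2, x ≠ 0 → x = 1 := by decide

/-- If the decomposition group surjects and inertia acts nontrivially, tame inertia acts
trivially. -/
theorem isSupersingularTwo_of_image {r₀ : GQ →* M2 (ZMod 2)}
    (hfin : GaloisFactorsThroughFiniteLevel r₀)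
    (h3 : ∃ g ∈ decG 2, (r₀ g).trace = 1) (h2 : ∃ g ∈ decG 2, (r₀ g).trace = 0 ∧ r₀ g ≠ 1)
    (hI : ∃ g ∈ inG 2, r₀ g ≠ 1) : IsSupersingularTwo r₀ := by
  refine ⟨hfin, ?_, hI⟩
  let K := GaloisField 2 2
  have hdet : ∀ g, (r₀ g).det = 1 := fun g => unit_zmod_two _ (CFT.Tangent.det_map_ne_zero r₀ g)
  obtain ⟨ω, hω⟩ : ∃ ω : K, ω * ω + ω + 1 = 0 := by
    classical
    haveI := Fintype.ofFinite K
    have hK : Fintype.card K = 4 := by
      rw [← Nat.card_eq_fintype_card, GaloisField.card 2 2 two_ne_zero]; norm_num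
    obtain ⟨x, -, hx⟩ := Finset.exists_mem_notMem_of_card_lt_card
      (s := {0, 1}) (t := (Finset.univ : Finset K))
      (by rw [Finset.card_univ, hK]; exact lt_of_le_of_lt Finset.card_le_two (by norm_num))
    simp only [Finset.mem_insert, Finset.mem_singleton, not_or] at hx
    refine ⟨x, (mul_eq_zero.mp (show x * (x - 1) * (x * x + x + 1) = 0 from ?_)).resolve_left
      (mul_ne_zero hx.1 (sub_ne_zero.mpr hx.2))⟩
    have h4 := FiniteField.pow_card x
    rw [hK] at h4
    linear_combination h4
  set r : GQ →* M2 K := extRep K r₀ with hr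
  have hsplit : ∀ g, ∃ α β : K, (r g).trace = α + β ∧ (r g).det = α * β := fun g => by
    have e1 : (r g).trace = algebraMap (ZMod 2) K (r₀ g).trace :=
      (AddMonoidHom.map_trace (algebraMap (ZMod 2) K) (r₀ g)).symm
    have e2 : (r g).det = 1 := by
      rw [← map_one (algebraMap (ZMod 2) K), ← hdet g]
      exact ((algebraMap (ZMod 2) K).map_det (r₀ g)).symm
    have h2 : (2 : K) = 0 := two_eq_zero'
    rcases zmod_two_cases (r₀ g).trace with e | e <;> rw [e] at e1
    · exact ⟨1, 1, by rw [e1, map_zero]; linear_combination -h2, by rw [e2, mul_one]⟩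
    · exact ⟨ω, ω + 1, by rw [e1, map_one]; linear_combination -ω * h2,
        by rw [e2]; linear_combination -hω + h2⟩
  obtain ⟨τ, hτ⟩ := exists_isGen
  haveI : CharP K 2 := charP_two
  rcases exists_line_or_torus (p := 2) (r := r)
      (by obtain ⟨L, hL, h⟩ := hfin; exact ⟨L, hL, fun σ hσ => extRep_eq_one (h σ hσ)⟩) hsplit
      hτ.mem with ⟨P, Pinv, hP, hP', hup⟩ | ⟨P, Pinv, l, -, -, htame, -, -⟩
  · obtain ⟨g, hg, htr⟩ := h3
    obtain ⟨h, hh, htr', hne⟩ := h2
    have e := commutator_det _ _ htr (hdet g) htr' (hdet h) hne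
    have e' : (r g * r h - r h * r g).det = 1 := by
      rw [← map_one (algebraMap (ZMod 2) K), ← e, (algebraMap (ZMod 2) K).map_det]
      congr 1
      rw [map_sub, map_mul, map_mul]
      rfl
    set A := Pinv * r g * P
    set B := Pinv * r h * P
    have hAB : Pinv * (r g * r h - r h * r g) * P = A * B - B * A := by
      simp only [A, B, mul_sub, sub_mul, mul_assoc, ← mul_assoc P Pinv, hP, one_mul]
    have hd : (A * B - B * A).det = 0 := by
      have hA : A 1 0 = 0 := hup g hg
      have hB : B 1 0 = 0 := hup h hh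
      simp only [Matrix.det_fin_two, Matrix.sub_apply, Matrix.mul_apply, Fin.sum_univ_two, hA, hB]
      ring
    rw [← hAB, Matrix.det_mul, Matrix.det_mul, e', mul_one, ← Matrix.det_mul, hP',
      Matrix.det_one] at hd
    exact absurd hd one_ne_zero
  · intro g hg
    have h := htame g hg
    ext i j
    apply (algebraMap (ZMod 2) K).injective
    have := congrFun (congrFun h i) j
    rw [hr, extRep_apply] at this
    rw [this, Matrix.one_apply, Matrix.one_apply]
    split_ifs <;> simp

end Fermat.Agent.RT.Two.Local
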