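import Fermat.Agent.CFT.Flat.DualOrder
import Fermat.Agent.CFT.Flat.Slots
import Fermat.Agent.CFT.Tangent.LocalPlace

/-!
# The local condition at two: definitions

A residual representation over `𝔽₂` whose restriction to inertia at `2` is tame of order three, its
adjoint classes with flat lifts, and the space of classes whose Kummer radicals on tame inertia
are congruent to one at level five.
-/

set_option autoImplicit false
set_option linter.unusedSectionVars false

noncomputable section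

namespace Fermat.Agent.RT.Two.Local

open Fermat.Agent.Deform Fermat.Agent.Arith Fermat.Agent.CFT.Tangent Fermat.Agent.CFT.Flat

/-- The residual hypothesis: tame and nontrivial on inertia at two. -/
structure IsSupersingularTwo (r₀ : GQ →* M2 (ZMod 2)) : Prop where
  finite : GaloisFactorsThroughFiniteLevel r₀
  tame_one : ∀ g ∈ tame 2, r₀ g = 1
  inertia_ne : ∃ g ∈ inG 2, r₀ g ≠ 1

variable (k : Type) [Field k] [Algebra (ZMod 2) k]

/-- Extension of scalars. -/
def extRep (r₀ : GQ →* M2 (ZMod 2)) : GQ →* M2 k :=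
  (RingHom.mapMatrix (algebraMap (ZMod 2) k)).toMonoidHom.comp r₀

variable {k}

/-- A first order deformation carrying an order which agrees on inertia with the class `b`. -/
def IsFlatClassTwo (r : GQ →* M2 k) (b : GQ → M2 k) : Prop :=
  ∃ U : GQ →* M2 (DualNumber k), Nonempty (FiniteFlat.GalOrder 2 (MatMod U)) ∧
    (∀ σ, fstM (U σ) = r σ) ∧ ∀ σ ∈ inG 2, sndM (U σ) = b σ * r σ

/-- A first order deformation flat at two gives a flat class. -/
theorem isFlatClassTwo_of_isFlatAt [Finite k] {r : GQ →* M2 k} {b : GQ → M2 k}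
    {ρ : GaloisRepAdic (DualNumber k)} (B : Module.Basis (Fin 2) (DualNumber k) ρ.V)
    (hflat : ρ.IsFlatAt 2) (hB : ∀ σ, matOf ρ B σ = (1 + epsM (b σ)) * inlM (r σ)) :
    IsFlatClassTwo r b := by
  have : CharP k 2 := charP_of_injective_algebraMap (algebraMap (ZMod 2) k).injective 2
  exact ⟨_, nonempty_galOrder B hflat, fun σ => fstM_of_lift hB σ, fun σ _ => sndM_of_lift hB σ⟩

/-- **The local condition at two.** -/
def localTwo (r : GQ →* M2 k) : Submodule k (GQ → M2 k) where
  carrier := {b | IsAdCocycle r b ∧ IsFiniteLevel b ∧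
    ∀ ℓ : M2 k →+ ZMod 2, HasDeep 2 (ℓ ∘ b) 5}
  zero_mem' := ⟨fun g g' => by simp, ⟨⊥, inferInstance, fun σ _ => rfl⟩, fun ℓ => by
    rw [show ℓ ∘ (0 : GQ → M2 k) = 0 from funext fun _ => map_zero ℓ]; exact hasDeep_zero 5⟩
  add_mem' {b c} hb hc := ⟨hb.1.add hc.1, by
    obtain ⟨L₁, hL₁, h₁⟩ := hb.2.1
    obtain ⟨L₂, hL₂, h₂⟩ := hc.2.1
    exact ⟨L₁ ⊔ L₂, IntermediateField.finiteDimensional_sup L₁ L₂, fun σ hσ => by
      rw [Pi.add_apply, h₁ σ fun x hx => hσ x ((le_sup_left : L₁ ≤ L₁ ⊔ L₂) hx),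
        h₂ σ fun x hx => hσ x ((le_sup_right : L₂ ≤ L₁ ⊔ L₂) hx), add_zero]⟩, fun ℓ => by
    rw [show ℓ ∘ (b + c) = ℓ ∘ b + ℓ ∘ c from funext fun _ => map_add ℓ _ _]
    exact (hb.2.2 ℓ).add (by norm_num) (hc.2.2 ℓ)⟩
  smul_mem' a b hb := ⟨fun g g' => by
      simp only [Pi.smul_apply, hb.1 g g', smul_add, mul_smul_comm, smul_mul_assoc], by
    obtain ⟨L, hL, h⟩ := hb.2.1
    exact ⟨L, hL, fun σ hσ => by rw [Pi.smul_apply, h σ hσ, smul_zero]⟩, fun ℓ =>
    hb.2.2 (ℓ.comp (DistribSMul.toAddMonoidHom (M2 k) a))⟩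

/-- The component in the centraliser of `s`, for `s` of order three. -/
def component (s X : M2 k) : M2 k := X + s * X * (s * s) + (s * s) * X * s

/-- The cup product under the trace pairing. -/
def cup (r : GQ →* M2 k) (c d : GQ → M2 k) (g h : GQ) : k :=
  (c g * (r g * d h * r g⁻¹)).trace

/-- A two cochain on the decomposition group at two is a coboundary of finite level. -/
def IsLocalCobd (z : GQ → GQ → k) : Prop :=
  ∃ f : GQ → k,
    (∃ L : IntermediateField ℚ QBar, FiniteDimensional ℚ L ∧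
      ∀ g ∈ decG 2, ∀ h ∈ decG 2, (∀ x ∈ L, h x = x) → f (g * h) = f g) ∧
    ∀ g ∈ decG 2, ∀ h ∈ decG 2, z g h = f g + f h - f (g * h)

end Fermat.Agent.RT.Two.Local
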