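import Fermat.Agent.RT.Two.Local.Points

/-!
# Kummer radicals of the translations of a point of an order at two

A quadratic character of tame inertia read off the translations of a point has a radical congruent
to one at level four as soon as it has one at level three.
-/

set_option autoImplicit false
set_option linter.style.haveILetI false
set_option linter.unusedSectionVars false

noncomputable section

namespace Fermat.Agent.RT.Two.Local

open Fermat.Agent.Arith Fermat.Agent.CFT.Flat Fermat.Agent.FiniteFlat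

theorem zp_two : zp 2 = -1 := (zp_spec 2).eq_neg_one_of_two_right

/-- The kernel of an additive map on tame inertia. -/
def tameKer {A : Type} [AddCommGroup A] (c : GQ → A)
    (hc : ∀ g ∈ tame 2, ∀ h ∈ tame 2, c (g * h) = c g + c h) : Subgroup GQ where
  carrier := {g | g ∈ tame 2 ∧ c g = 0}
  one_mem' := ⟨(tame 2).one_mem, by
    simpa using (hc 1 (tame 2).one_mem 1 (tame 2).one_mem).symm⟩
  mul_mem' {a b} ha hb := ⟨(tame 2).mul_mem ha.1 hb.1, by rw [hc a ha.1 b hb.1, ha.2, hb.2, add_zero]⟩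
  inv_mem' {a} ha := by
    refine ⟨(tame 2).inv_mem ha.1, ?_⟩
    have h1 : c 1 = 0 := by simpa using (hc 1 (tame 2).one_mem 1 (tame 2).one_mem).symm
    have := hc a ha.1 a⁻¹ ((tame 2).inv_mem ha.1)
    rwa [mul_inv_cancel, h1, ha.2, zero_add, eq_comm] at this

theorem mem_tameKer {A : Type} [AddCommGroup A] {c : GQ → A}
    {hc : ∀ g ∈ tame 2, ∀ h ∈ tame 2, c (g * h) = c g + c h} {g : GQ} :
    g ∈ tameKer c hc ↔ g ∈ tame 2 ∧ c g = 0 := Iff.rfl

/-- The index of the kernel is the order of the image. -/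
theorem exists_image {A : Type} [AddCommGroup A] (c : GQ → A)
    (hc : ∀ g ∈ tame 2, ∀ h ∈ tame 2, c (g * h) = c g + c h) :
    ∃ S : AddSubgroup A, (∀ a, a ∈ S ↔ ∃ g ∈ tame 2, c g = a) ∧
      (tameKer c hc).relIndex (tame 2) = Nat.card S := by
  have h1 : c 1 = 0 := by simpa using (hc 1 (tame 2).one_mem 1 (tame 2).one_mem).symm
  let θ : tame 2 →* Multiplicative A :=
    { toFun := fun g => Multiplicative.ofAdd (c g)
      map_one' := by rw [OneMemClass.coe_one, h1]; rfl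
      map_mul' := fun a b => by rw [Subgroup.coe_mul, hc _ a.2 _ b.2]; rfl }
  let θ' : Additive (tame 2) →+ A := MonoidHom.toAdditiveLeft θ
  refine ⟨θ'.range, fun a => ⟨?_, ?_⟩, ?_⟩
  · rintro ⟨g, rfl⟩
    exact ⟨(Additive.toMul g).1, (Additive.toMul g).2, rfl⟩
  · rintro ⟨g, hg, rfl⟩
    exact ⟨Additive.ofMul ⟨g, hg⟩, rfl⟩
  · rw [Subgroup.relIndex,
      show (tameKer c hc).subgroupOf (tame 2) = θ.ker from Subgroup.ext fun g =>
        ⟨fun h => congrArg Multiplicative.ofAdd h.2, fun h => ⟨g.2, Multiplicative.ofAdd.injective h⟩⟩,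
      Subgroup.index_ker]
    exact Nat.card_congr
      { toFun := fun x => ⟨Multiplicative.toAdd x.1, by
          obtain ⟨g, hg⟩ := x.2
          exact ⟨Additive.ofMul g, by rw [← hg]; rfl⟩⟩
        invFun := fun x => ⟨Multiplicative.ofAdd x.1, by
          obtain ⟨g, hg⟩ := x.2
          exact ⟨Additive.toMul g, by rw [← hg]; rfl⟩⟩
        left_inv := fun x => rfl
        right_inv := fun x => rfl }

variable {M : Type} [AddCommGroup M] [Fintype M] [DistribMulAction GQ M] (O : GalOrder 2 M)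

set_option maxHeartbeats 1000000 in
include O in
/-- **The radical of a translation character deepens from level three to four.** -/
theorem hasDeep_four (hkill : ∀ x : M, x + x = 0) {τ : GQ} (hτ : τ ∈ inG 2)
    (hτprim : IsPrimitiveRoot (theta 2 τ) (e₀ 2))
    (hgen : ∀ g ∈ inG 2, ∃ i : ℕ, (τ ^ i)⁻¹ * g ∈ tame 2)
    (hτM : ∀ x : M, τ • τ • x + τ • x + x = 0) (A : AddSubgroup M) (hA : Nat.card A ≤ 4)
    (hmem : ∀ g ∈ tame 2, ∀ x : M, g • x - x ∈ A) (hfixA : ∀ g ∈ tame 2, ∀ x ∈ A, g • x = x)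
    (m : M) (φ : M →+ ZMod 2) (h3 : HasDeep 2 (fun g => φ (g • m - m)) 3) :
    HasDeep 2 (fun g => φ (g • m - m)) 4 := by
  classical
  set t : GQ → M := fun g => g • m - m with ht
  have hadd : ∀ g ∈ tame 2, ∀ h ∈ tame 2, t (g * h) = t g + t h := fun g hg h hh => by
    have := hfixA g hg _ (hmem h hh m)
    simp only [ht, mul_smul] at this ⊢
    rw [smul_sub] at this
    rw [← this]
    abel
  set c : GQ → ZMod 2 := fun g => φ (t g)
  have hcadd : ∀ g ∈ tame 2, ∀ h ∈ tame 2, c (g * h) = c g + c h := fun g hg h hh => by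
    simp only [c, hadd g hg h hh, map_add]
  show HasDeep 2 c 4
  by_cases hc0 : ∀ g ∈ tame 2, c g = 0
  · exact (hasDeep_zero 4).congr fun g hg => (hc0 g hg).symm
  push Not at hc0
  obtain ⟨g₁, hg₁, hcg₁⟩ := hc0
  have hcg₁' : c g₁ = 1 := (zmod_two_cases _).resolve_left hcg₁
  have u := isUnif_rad 2
  set q := nrm 2 (rad 2) with hq
  obtain ⟨α, hα, hα3⟩ := h3
  by_contra hnot
  have hexact : nrm 2 (α ^ 2 - 1) = q ^ 3 := by
    refine le_antisymm hα3 ?_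
    by_contra hlt
    exact hnot ⟨α, hα, u.nrm_le_of_lt (fun g hg => by rw [map_sub, hα.pow_fixed g hg, map_one])
      (not_le.mp hlt)⟩
  -- the quadratic field of the character
  set K₂ := tameKer c hcadd
  set K := tameKer t hadd
  have hKle : K ≤ tame 2 := fun g hg => hg.1
  have hK₂le : K₂ ≤ tame 2 := fun g hg => hg.1
  have hKK₂ : K ≤ K₂ := fun g hg => ⟨hg.1, by show φ (t g) = 0; rw [hg.2, map_zero]⟩
  have hKfix : ∀ g ∈ K, g • m = m := fun g hg => sub_eq_zero.mp hg.2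
  have hlevK : IsLevel 2 K :=
    ((isLevel_fixM O).inf u.level).of_le (fun g hg => ⟨hg.2, by
      show g • m - m = 0
      rw [((mem_fixM 2 M).mp hg.1).2 m, sub_self]⟩) (hKle.trans u.level.le)
  have hlevK₂ : IsLevel 2 K₂ := hlevK.of_le hKK₂ (hK₂le.trans u.level.le)
  have hindex₂ : K₂.relIndex (tame 2) = 2 := by
    obtain ⟨S, hS, hSc⟩ := exists_image c hcadd
    rw [hSc, show S = ⊤ from eq_top_iff.mpr fun a _ => (hS a).mpr ?_]
    · rw [AddSubgroup.card_top, Nat.card_zmod]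
    · rcases zmod_two_cases a with rfl | rfl
      exacts [⟨1, (tame 2).one_mem, (mem_tameKer.mp K₂.one_mem).2⟩, ⟨g₁, hg₁, hcg₁'⟩]
  have hα1 : nrm 2 α = 1 := (pow_eq_one_iff_of_nonneg (nrm_nonneg 2 α) two_ne_zero).mp
    (by rw [← CFT.Flat.nrm_pow]; exact nrm_pow_eq_one (p := 2) (by norm_num) hα3)
  have hq3 : nrm 2 (2 : QBar) = q ^ 3 := nrm_two_eq_rad
  set β := α - 1 with hβ
  have hβbig : q ^ 3 < nrm 2 β := by
    by_contra hle
    rw [not_lt] at hle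
    have h : nrm 2 (α ^ 2 - 1) ≤ q ^ 3 * q ^ 3 := by
      rw [show α ^ 2 - 1 = β * (β + 2) by rw [hβ]; ring, nrm_mul]
      exact mul_le_mul hle (nrm_add_le_of_le 2 hle hq3.le) (nrm_nonneg 2 _) (pow_nonneg u.pos.le _)
    rw [hexact] at h
    exact absurd h (not_le.mpr (mul_lt_of_lt_one_left (pow_pos u.pos 3)
      (pow_lt_one₀ u.pos.le u.lt_one three_ne_zero)))
  have hβ2 : nrm 2 β ^ 2 = q ^ 3 := by
    rw [← hexact, show α ^ 2 - 1 = β * (β + 2) by rw [hβ]; ring, nrm_mul,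
      nrm_add_eq_of_lt 2 (hq3.trans_lt hβbig), sq]
  set ϖ₂ := β / rad 2 with hϖ₂
  have hϖ₂2 : nrm 2 ϖ₂ ^ 2 = q := by
    rw [hϖ₂, nrm_div, div_pow, hβ2, div_eq_iff (pow_ne_zero _ u.pos.ne')]
    ring
  have u₂ : IsUnif (p := 2) K₂ ϖ₂ := by
    refine ⟨hlevK₂, fun g hg => ?_, ?_⟩
    · rw [hϖ₂, map_div₀, hβ, map_sub, map_one, hα.2 g hg.1, hg.2, ZMod.val_zero, pow_zero, one_mul,
        ((mem_tame 2).mp hg.1).2]
    · rw [relIndex_inG_eq hK₂le, hindex₂, pow_mul, hϖ₂2, hq, ← nrm_rad_pow 2, e₀_two]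
  have hmove₂ : ∀ g ∈ tame 2, c g = 1 → nrm 2 (g ϖ₂ - ϖ₂) = q ^ 2 := fun g hg hcg => by
    rw [hϖ₂, map_div₀, ((mem_tame 2).mp hg).2, ← sub_div, hβ, map_sub, map_one, hα.2 g hg, hcg,
      show (1 : ZMod 2).val = 1 from rfl, pow_one, zp_two,
      show (-1 : QBar) * α - 1 - (α - 1) = -(2 * α) by ring, nrm_div, nrm_neg, nrm_mul, hα1, mul_one,
      hq3, div_eq_iff u.pos.ne']
    ring
  -- the field of the point
  obtain ⟨ϖ, uK⟩ := hlevK.exists_unif
  obtain ⟨S, hS, hScard⟩ := exists_image t hadd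
  set N := K.relIndex (tame 2) with hN
  have hqN : nrm 2 ϖ ^ N = q := nrm_pow_relIndex_tame uK hKle
  haveI : Finite A := Subtype.finite
  have hSA : S ≤ A := fun a ha => by
    obtain ⟨g, hg, rfl⟩ := (hS a).mp ha
    exact hmem g hg m
  have hN4 : N ≤ 4 := hScard.trans_le ((AddSubgroup.card_le_of_le hSA).trans hA)
  have ht₁ : t g₁ ≠ 0 := fun h => hcg₁ (by show φ (t g₁) = 0; rw [h, map_zero])
  have hN2 : 2 ∣ N := by
    rw [hScard]
    have hx : addOrderOf (⟨t g₁, (hS _).mpr ⟨g₁, hg₁, rfl⟩⟩ : S) = 2 :=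
      addOrderOf_eq_prime (by ext; simpa [two_nsmul] using hkill (t g₁))
        fun h => ht₁ (congrArg Subtype.val h)
    exact hx ▸ addOrderOf_dvd_natCard _
  have hN0 : N ≠ 0 := by
    have := hlevK.relIndex_ne_zero
    rw [relIndex_inG_eq hKle] at this
    exact fun h => this (by rw [← hN, h, zero_mul])
  have hm0 : m ≠ 0 := fun h => ht₁ (by simp only [ht, h, smul_zero, sub_self])
  obtain ⟨a, ha1, heven, hval⟩ := exists_value_exponent O hkill hm0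
    (mem_conn_of_quad O hkill hτ hτM m) uK hKfix
  have ha2 : 2 ≤ a := by
    rw [relIndex_inG_eq hKle, ← hN] at heven
    obtain ⟨N', hN'⟩ := hN2
    obtain ⟨b, hb⟩ := heven
    omega
  have hlow : ∀ g ∈ tame 2, t g ≠ 0 → q ≤ nrm 2 ϖ * nrm 2 (g ϖ - ϖ) := by
    intro g hg htg
    obtain ⟨f, hf, hfm⟩ := exists_move O hkill hτ hτprim hgen hτM (m := m)
      (fun g' hg' => hfixA g' hg' _ (hmem g hg m)) htg
    have hgI := ((mem_tame 2).mp hg).1
    obtain ⟨a', ha'⟩ : ∃ a', a = a' + 1 := ⟨a - 1, by omega⟩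
    refine hfm.trans ?_
    rw [show f (m + (g • m - m)) - f m = g (f m - f 0) - (f m - f 0) by
      rw [map_sub, ← O.equivariant f hf, apply_zero_fixed O hf, add_sub_cancel]; ring]
    refine (move_le (a := a') uK (fun k hk => by
      rw [map_sub, ← O.equivariant f hf, hKfix k hk, apply_zero_fixed O hf])
      (ha' ▸ hval f hf) hgI).trans (mul_le_mul_of_nonneg_right ?_ (nrm_nonneg 2 _))
    exact pow_le_of_le_one uK.pos.le uK.lt_one.le (by omega)
  have hnorm : ∀ g ∈ tame 2, ∀ k ∈ K, g⁻¹ * k * g ∈ K := fun g hg k hk => by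
    have hg' := (tame 2).inv_mem hg
    refine ⟨(tame 2).mul_mem ((tame 2).mul_mem hg' hk.1) hg, ?_⟩
    have h1 := hadd _ ((tame 2).mul_mem hg' hk.1) g hg
    have h2 := hadd _ hg' k hk.1
    have h4 := hadd _ hg' g hg
    rw [inv_mul_cancel, show t 1 = 0 from (mem_tameKer.mp K.one_mem).2] at h4
    rw [h1, h2, hk.2, add_zero, ← h4]
  have hsqK : ∀ g ∈ tame 2, g * g ∈ K := fun g hg =>
    ⟨(tame 2).mul_mem hg hg, by rw [hadd g hg g hg, hkill]⟩
  rcases (show N = 2 ∨ N = 4 by obtain ⟨N', hN'⟩ := hN2; omega) with hN' | hN'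
  · have h1 := hlow g₁ hg₁ ht₁
    have h2 := move_le_sq uK ((mem_tame 2).mp hg₁).1 (hnorm g₁ hg₁) (hsqK g₁ hg₁)
    have : q ≤ nrm 2 ϖ ^ 3 := h1.trans (by
      rw [pow_succ' (nrm 2 ϖ) 2]; exact mul_le_mul_of_nonneg_left h2 uK.pos.le)
    rw [← hqN, hN', pow_le_pow_iff_right_of_lt_one₀ uK.pos uK.lt_one] at this
    omega
  -- four translations
  have hfour : ∀ g ∈ tame 2, t g ≠ 0 → nrm 2 ϖ ^ 3 ≤ nrm 2 (g ϖ - ϖ) := fun g hg htg => by
    have := hlow g hg htg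
    rw [← hqN, hN', show (4 : ℕ) = 3 + 1 from rfl, pow_succ' (nrm 2 ϖ) 3] at this
    exact le_of_mul_le_mul_left this uK.pos
  have hrel : K.relIndex K₂ = 2 := by
    have := Subgroup.relIndex_mul_relIndex K K₂ (tame 2) hKK₂ hK₂le
    rw [hindex₂, ← hN, hN'] at this
    omega
  obtain ⟨h, hh₂, hhK⟩ : ∃ h ∈ K₂, h ∉ K := by
    by_contra hall
    push Not at hall
    have := Subgroup.relIndex_eq_one.mpr (show K₂ ≤ K from hall)
    omega
  have hh := hh₂.1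
  have hcoset : ∀ k ∈ K₂, k ∉ K → h⁻¹ * k ∈ K := by
    intro k hk hkK
    have h1 := (Subgroup.mul_mem_iff_of_index_two (H := K.subgroupOf K₂) hrel
      (a := (⟨h, hh₂⟩⁻¹ : K₂)) (b := ⟨k, hk⟩)).mpr
    have h2 : (⟨h, hh₂⟩⁻¹ : K₂) ∈ K.subgroupOf K₂ ↔ (⟨k, hk⟩ : K₂) ∈ K.subgroupOf K₂ :=
      ⟨fun hin => absurd (Subgroup.mem_subgroupOf.mp ((K.subgroupOf K₂).inv_mem hin))
        (by simpa using hhK), fun hin => absurd (Subgroup.mem_subgroupOf.mp hin) hkK⟩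
    exact Subgroup.mem_subgroupOf.mp (h1 h2)
  have hhh : h (h ϖ) = ϖ := by
    rw [← AlgEquiv.mul_apply]; exact uK.fixed _ (hsqK h hh)
  have hhfix : ∀ k ∈ K, k (h ϖ) = h ϖ := fun k hk => by
    have := congrArg h (uK.fixed _ (hnorm h hh k hk))
    rwa [← AlgEquiv.mul_apply, ← mul_assoc, ← mul_assoc, mul_inv_cancel, one_mul,
      AlgEquiv.mul_apply] at this
  have hswap : ∀ k ∈ K₂, (k ϖ = ϖ ∧ k (h ϖ) = h ϖ) ∨ (k ϖ = h ϖ ∧ k (h ϖ) = ϖ) := by
    intro k hk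
    by_cases hkK : k ∈ K
    · exact Or.inl ⟨uK.fixed k hkK, hhfix k hkK⟩
    · refine Or.inr ⟨?_, ?_⟩ <;> rw [show k = h * (h⁻¹ * k) by group, AlgEquiv.mul_apply]
      · rw [uK.fixed _ (hcoset k hk hkK)]
      · rw [hhfix _ (hcoset k hk hkK), hhh]
  set s := ϖ + h ϖ with hs
  set Nm := ϖ * h ϖ with hNm
  have hsfix : ∀ k ∈ K₂, k s = s := fun k hk => by
    rcases hswap k hk with ⟨e1, e2⟩ | ⟨e1, e2⟩ <;> rw [hs, map_add, e1, e2]
    rw [add_comm]
  have hNfix : ∀ k ∈ K₂, k Nm = Nm := fun k hk => by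
    rcases hswap k hk with ⟨e1, e2⟩ | ⟨e1, e2⟩ <;> rw [hNm, map_mul, e1, e2]
    rw [mul_comm]
  have hhI := ((mem_tame 2).mp hh).1
  have hgI := ((mem_tame 2).mp hg₁).1
  have hhn : nrm 2 (h ϖ) = nrm 2 ϖ := nrm_map_of_mem_inG 2 hhI ϖ
  have hs1 : nrm 2 s < nrm 2 ϖ₂ ^ 0 := by
    rw [pow_zero]
    exact (nrm_add_le_of_le 2 le_rfl hhn.le).trans_lt uK.lt_one
  have hNn : nrm 2 Nm = nrm 2 ϖ₂ := by
    refine (pow_left_inj₀ (nrm_nonneg 2 _) (nrm_nonneg 2 _) two_ne_zero).mp ?_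
    rw [hϖ₂2, hNm, nrm_mul, hhn, ← hqN, hN']
    ring
  have hq8 : q ^ 2 = nrm 2 ϖ ^ 8 := by rw [← hqN, hN', ← pow_mul]
  have hms : nrm 2 (g₁ s - s) ≤ nrm 2 ϖ ^ 8 := by
    have h1 := move_le (a := 0) u₂ hsfix (u₂.nrm_le_of_lt hsfix hs1) hgI
    rwa [pow_zero, one_mul, hmove₂ g₁ hg₁ hcg₁', hq8] at h1
  have hmN : nrm 2 (g₁ Nm - Nm) ≤ nrm 2 ϖ ^ 8 := by
    have h1 := move_le (a := 0) u₂ hNfix (by rw [zero_add, pow_one, hNn]) hgI
    rwa [pow_zero, one_mul, hmove₂ g₁ hg₁ hcg₁', hq8] at h1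
  have hgh : g₁ * h ∈ tame 2 := (tame 2).mul_mem hg₁ hh
  have htgh : t (g₁ * h) ≠ 0 := fun h0 => hcg₁ (by
    have := congrArg φ h0
    rw [hadd g₁ hg₁ h hh, map_add, map_zero] at this
    rwa [show φ (t h) = 0 from hh₂.2, add_zero] at this)
  have hprod : (g₁ ϖ - ϖ) * ((g₁ * h) ϖ - ϖ) = (g₁ Nm - Nm) - ϖ * (g₁ s - s) := by
    rw [hs, hNm, map_add, map_mul, AlgEquiv.mul_apply]
    ring
  have hup : nrm 2 ((g₁ ϖ - ϖ) * ((g₁ * h) ϖ - ϖ)) ≤ nrm 2 ϖ ^ 8 := by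
    rw [hprod]
    refine nrm_sub_le_of_le 2 hmN ?_
    rw [nrm_mul]
    exact (mul_le_of_le_one_left (nrm_nonneg 2 _) uK.lt_one.le).trans hms
  have hdown : nrm 2 ϖ ^ 6 ≤ nrm 2 ((g₁ ϖ - ϖ) * ((g₁ * h) ϖ - ϖ)) := by
    rw [nrm_mul, show (6 : ℕ) = 3 + 3 from rfl, pow_add]
    exact mul_le_mul (hfour _ hg₁ ht₁) (hfour _ hgh htgh) (pow_nonneg uK.pos.le _) (nrm_nonneg 2 _)
  have := (pow_le_pow_iff_right_of_lt_one₀ uK.pos uK.lt_one).mp (hdown.trans hup)
  omega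

end Fermat.Agent.RT.Two.Local
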