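import Fermat.Agent.RT.Two.Local.Component
import Fermat.Agent.RT.Two.Local.Radical

/-!
# The classes in the local condition at two

The component fixed by inertia of such a class is unramified, and the other component is
determined modulo coboundaries by one scalar, the leading coefficient of its radicals.
-/

set_option autoImplicit false
set_option linter.style.haveILetI false
set_option linter.unusedSectionVars false

noncomputable section

namespace Fermat.Agent.RT.Two.Local

open Fermat.Agent.Deform Fermat.Agent.Arith Fermat.Agent.CFT.Tangent Fermat.Agent.CFT.Flat Matrix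

/-- A generator of tame inertia and a Frobenius element fixing the radical. -/
structure IsPair (τ φ : GQ) : Prop where
  gen : IsGen τ
  memD : φ ∈ decG 2
  fix_rad : φ (rad 2) = rad 2
  frob : ∀ x, nrm 2 x ≤ 1 → nrm 2 (φ x - x ^ 2) < 1
  conj : (τ ^ 2)⁻¹ * (φ * τ * φ⁻¹) ∈ tame 2

theorem exists_isPair : ∃ τ φ, IsPair τ φ := by
  obtain ⟨τ, hτ⟩ := exists_isGen
  obtain ⟨φ, hφ, hφrad, hfrob⟩ := exists_frobenius_rad 2
  refine ⟨τ, φ, hτ, hφ, hφrad, hfrob, ?_⟩
  have hconjI : φ * τ * φ⁻¹ ∈ inG 2 := by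
    have := conj_mem_inG (p := 2) ((decG 2).inv_mem hφ) hτ.mem
    rwa [inv_inv] at this
  refine (mem_tame 2).mpr ⟨(inG 2).mul_mem ((inG 2).inv_mem ((inG 2).pow_mem hτ.mem 2)) hconjI, ?_⟩
  have hφ' : φ⁻¹ (rad 2) = rad 2 := by
    conv_lhs => rw [← hφrad]
    rw [← AlgEquiv.mul_apply, inv_mul_cancel, AlgEquiv.one_apply]
  have h1 : (φ * τ * φ⁻¹) (rad 2) = (τ ^ 2) (rad 2) := by
    rw [AlgEquiv.mul_apply, AlgEquiv.mul_apply, hφ', map_rad 2 τ, map_mul, hφrad,
      map_root_of_frobenius 2 hfrob (e₀_pos 2) (theta_pow 2 τ) (not_dvd_e₀ 2), pow_two τ,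
      AlgEquiv.mul_apply, map_rad 2 τ, map_mul, map_theta 2 hτ.mem, map_rad 2 τ, sq, mul_assoc]
  rw [AlgEquiv.mul_apply, h1, ← AlgEquiv.mul_apply, inv_mul_cancel, AlgEquiv.one_apply]

/-- Induction along the decomposition group. -/
theorem forall_decG {τ φ : GQ} (P : IsPair τ φ) {Q : GQ → Prop}
    (hmul : ∀ g ∈ decG 2, ∀ h ∈ decG 2, Q g → Q h → Q (g * h)) (h1 : Q 1) (hφ : Q φ)
    (hI : ∀ g ∈ inG 2, Q g) (L₀ : IntermediateField ℚ QBar) [FiniteDimensional ℚ L₀]
    (hL : ∀ h ∈ decG 2, (∀ x ∈ L₀, h x = x) → Q h) {g : GQ} (hg : g ∈ decG 2) : Q g := by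
  haveI : Normal ℚ QBar := IsAlgClosure.normal ℚ QBar
  set L := IntermediateField.normalClosure ℚ L₀ QBar
  haveI : FiniteDimensional ℚ L := inferInstance
  haveI : Normal ℚ L := normalClosure.normal ℚ L₀ QBar
  obtain ⟨i, h, t, hh, hhD, ht, rfl⟩ := exists_frobenius_decomp P.memD P.frob hg L
  have hi : ∀ i : ℕ, Q (φ ^ i) := by
    intro i
    induction i with
    | zero => rwa [pow_zero]
    | succ i ih => rw [pow_succ']; exact hmul _ P.memD _ ((decG 2).pow_mem P.memD i) hφ ih
  have hi' := (decG 2).pow_mem P.memD i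
  refine hmul _ ((decG 2).mul_mem hi' hhD) _ (inG_le_decG 2 ht) (hmul _ hi' _ hhD (hi i)
    (hL h hhD fun x hx => ?_)) (hI t ht)
  exact (IntermediateField.mem_fixingSubgroup_iff L h).mp hh x (L₀.le_normalClosure hx)

theorem pow_cases {M : Type} [Monoid M] {s : M} (h : s * s * s = 1) :
    ∀ i : ℕ, s ^ i = 1 ∨ s ^ i = s ∨ s ^ i = s * s
  | 0 => Or.inl (pow_zero s)
  | i + 1 => by
    rcases pow_cases h i with e | e | e <;> rw [pow_succ, e]
    · exact Or.inr (Or.inl (one_mul s))
    · exact Or.inr (Or.inr rfl)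
    · exact Or.inl h

variable {k : Type} [Field k] [Algebra (ZMod 2) k]

/-- The component as an additive map. -/
def compHom (s : M2 k) : M2 k →+ M2 k :=
  AddMonoidHom.mk' (component s) fun X Y => by simp only [component, mul_add, add_mul]; abel

theorem compHom_apply (s X : M2 k) : compHom s X = component s X := rfl

/-- The complementary component. -/
def restHom (s : M2 k) : M2 k →+ M2 k := AddMonoidHom.id _ + compHom s

theorem restHom_apply (s X : M2 k) : restHom s X = X + component s X := rfl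

theorem component_smul (s X : M2 k) (a : k) : component s (a • X) = a • component s X := by
  simp only [component, mul_smul_comm, smul_mul_assoc, smul_add]

theorem component_restHom {s : M2 k} (hs : s * s + s + 1 = 0) (X : M2 k) :
    component s (restHom s X) = 0 := by
  rw [← compHom_apply, restHom_apply, map_add, compHom_apply, compHom_apply, component_idem hs,
    add_self_zero]

theorem trace_restHom {s : M2 k} (hs : s * s + s + 1 = 0) (X : M2 k) :
    (restHom s X).trace = 0 := by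
  rw [restHom_apply, Matrix.trace_add, trace_component hs]
  linear_combination X.trace * two_eq_zero' (k := k)

theorem eq_zero_of_forall_hom {M : Type} [AddCommGroup M] [Module (ZMod 2) M] {x : M}
    (h : ∀ ℓ : M →+ ZMod 2, ℓ x = 0) : x = 0 :=
  (Module.forall_dual_apply_eq_zero_iff (ZMod 2) x).mp fun f => h f.toAddMonoidHom

variable {r₀ : GQ →* M2 (ZMod 2)} (hr : IsSupersingularTwo r₀) {τ φ : GQ} (P : IsPair τ φ)

local notation "ρ" => extRep k r₀

omit [Field k] [Algebra (ZMod 2) k] in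
include hr P in
theorem IsPair.normalizes : r₀ φ * r₀ τ = r₀ τ * r₀ τ * r₀ φ := by
  have h := hr.tame_one _ P.conj
  calc r₀ φ * r₀ τ = r₀ (τ ^ 2 * ((τ ^ 2)⁻¹ * (φ * τ * φ⁻¹))) * r₀ φ := by
        rw [mul_inv_cancel_left, ← map_mul, ← map_mul, inv_mul_cancel_right]
    _ = r₀ τ * r₀ τ * r₀ φ := by rw [map_mul r₀ (τ ^ 2), h, mul_one, map_pow, sq]

include hr P in
theorem IsPair.normalizes_ext : ρ φ * ρ τ = ρ τ * ρ τ * ρ φ := by
  have := congrArg (RingHom.mapMatrix (algebraMap (ZMod 2) k)) (IsPair.normalizes hr P)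
  simpa only [map_mul, extRep_mul] using this

include hr P in
theorem IsPair.map_inv_tau : ρ τ⁻¹ = ρ τ * ρ τ := by
  have h := cube_eq_one (hr.sq_add_ext (k := k) P.gen)
  calc ρ τ⁻¹ = ρ τ⁻¹ * (ρ τ * ρ τ * ρ τ) := by rw [h, mul_one]
    _ = ρ τ * ρ τ := by rw [← mul_assoc, ← mul_assoc, CFT.Tangent.map_inv_mul, one_mul]

include hr P in
theorem component_ad (g : GQ) (X : M2 k) :
    component (ρ τ) (ρ g * X * ρ g⁻¹) = ρ g * component (ρ τ) X * ρ g⁻¹ :=
  component_normalizer (hr.sq_add_ext P.gen) (extRep_normalizes (hr.sq_add P.gen) g)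
    (CFT.Tangent.map_mul_inv _ g) X

include hr P in
theorem isAdCocycle_comp {c : GQ → M2 k} (hc : IsAdCocycle ρ c) :
    IsAdCocycle ρ fun g => component (ρ τ) (c g) := fun g h => by
  dsimp only
  rw [hc g h, ← compHom_apply, map_add, compHom_apply, compHom_apply, component_ad hr P]

include hr P in
theorem restHom_ad (g : GQ) (X : M2 k) :
    restHom (ρ τ) (ρ g * X * ρ g⁻¹) = ρ g * restHom (ρ τ) X * ρ g⁻¹ := by
  rw [restHom_apply, restHom_apply, component_ad hr P, mul_add, add_mul]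

include hr P in
theorem isAdCocycle_rest {c : GQ → M2 k} (hc : IsAdCocycle ρ c) :
    IsAdCocycle ρ fun g => restHom (ρ τ) (c g) := fun g h => by
  dsimp only
  rw [hc g h, map_add, restHom_ad hr P]

include hr in
/-- Conjugation on tame inertia. -/
theorem conj_tame {c : GQ → M2 k} (hc : IsAdCocycle ρ c) (s : GQ) (hs : s ∈ decG 2) {g : GQ}
    (hg : g ∈ tame 2) : c (s⁻¹ * g * s) = ρ s⁻¹ * c g * ρ s := by
  have h1 := hr.tame_one _ (conj_mem_tame hs hg)
  have h := hc.conj s⁻¹ g
  rw [inv_inv, extRep_eq_one h1, extRep_inv_eq_one h1, one_mul, mul_one, add_sub_cancel_right] at h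
  exact h

/-- Vanishing on the decomposition group. -/
theorem eq_zero_decG {τ φ : GQ} (P : IsPair τ φ) {r : GQ →* M2 k} {c : GQ → M2 k}
    (hc : IsAdCocycle r c) (hfin : IsFiniteLevel c) (hφ : c φ = 0) (hI : ∀ g ∈ inG 2, c g = 0)
    {g : GQ} (hg : g ∈ decG 2) : c g = 0 := by
  obtain ⟨L, hL, hL'⟩ := hfin
  exact forall_decG P (Q := fun g => c g = 0)
    (fun g _ h _ eg eh => by rw [hc g h, eg, eh]; simp) hc.one hφ hI L
    (fun h _ hh => hL' h hh) hg

include hr P in
/-- A cocycle which vanishes on tame inertia and at the generator vanishes on inertia. -/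
theorem eq_zero_inG {c : GQ → M2 k} (hc : IsAdCocycle ρ c) (h0 : ∀ g ∈ tame 2, c g = 0)
    (hτ : c τ = 0) {g : GQ} (hg : g ∈ inG 2) : c g = 0 := by
  obtain ⟨i, hi⟩ := P.gen.gen g hg
  rw [show g = τ ^ i * ((τ ^ i)⁻¹ * g) by group, hc, h0 _ hi, hc.pow_eq_zero hτ]
  simp

include hr P in
/-- **The component fixed by inertia is trivial on tame inertia.** -/
theorem component_tame {c : GQ → M2 k} (hc : c ∈ localTwo ρ) {g : GQ} (hg : g ∈ tame 2) :
    component (ρ τ) (c g) = 0 := by
  have hs := hr.sq_add_ext (k := k) P.gen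
  refine eq_zero_of_forall_hom fun ℓ => ?_
  set f : GQ → ZMod 2 := (ℓ.comp (compHom (ρ τ))) ∘ c with hf
  have h5 : HasDeep 2 f 5 := hc.2.2 _
  have hinv : ∀ g ∈ tame 2, f g = (1 : ZMod 2) * f (τ⁻¹ * g * τ) := fun g hg => by
    rw [one_mul, hf]
    simp only [Function.comp_apply, AddMonoidHom.comp_apply, compHom_apply,
      conj_tame hr hc.1 τ (inG_le_decG 2 P.gen.mem) hg, IsPair.map_inv_tau hr P]
    congr 1
    have h : component (ρ τ * ρ τ) (ρ τ * ρ τ * c g * (ρ τ * ρ τ * (ρ τ * ρ τ))) =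
        component (ρ τ * ρ τ) (c g) :=
      component_conj (by rw [sq_sq hs]; linear_combination (norm := abel) hs) (c g)
    rw [sq_sq hs, component_sq hs, component_sq hs] at h
    exact h.symm
  obtain ⟨x, hx, e1, e2⟩ := slot_map (p := 2) (inG_le_decG 2 P.gen.mem) (a := (1 : ZMod 2))
    (by rw [zp_two, map_neg, map_one, ZMod.val_one, pow_one]) hinv (n := 5) (by norm_num)
    (by norm_num) (by norm_num) h5
  rw [res_map_inG P.gen.mem hx, ← e1] at e2
  have hprim := isPrimitiveRoot_thetaBar 2 P.gen.prim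
  have hθ : thetaBar 2 τ ^ 5 ≠ 1 := fun h => by
    have := Nat.le_of_dvd (by norm_num) ((hprim.pow_eq_one_iff_dvd 5).mp h)
    have h3 := (hprim.pow_eq_one_iff_dvd 5).mp h
    rw [show e₀ 2 = 3 from rfl] at h3
    norm_num at h3
  have h0 : slot 2 f 5 = 0 := by
    by_contra hne
    exact hθ ((mul_eq_right₀ hne).mp e2.symm)
  obtain ⟨α, hα, hdeep⟩ := h5.succ (by norm_num) (by norm_num) (Or.inr h0)
  exact hα.eq_zero_of_deep hdeep hg

include hr P in
theorem component_at_tau {c : GQ → M2 k} (hc : c ∈ localTwo ρ) : component (ρ τ) (c τ) = 0 := by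
  have hs := hr.sq_add_ext (k := k) P.gen
  have h3 := component_tame hr P hc P.gen.cube_mem
  have e : c (τ ^ 3) = component (ρ τ) (c τ) := by
    rw [pow_succ', pow_two, hc.1, hc.1, IsPair.map_inv_tau hr P, component]
    simp only [mul_add, add_mul]
    rw [show ρ τ * (ρ τ * c τ * (ρ τ * ρ τ)) * (ρ τ * ρ τ) =
      ρ τ * ρ τ * c τ * (ρ τ * ρ τ * (ρ τ * ρ τ)) by simp only [mul_assoc], sq_sq hs]
    abel
  rwa [e, component_idem hs] at h3

include hr P in
/-- **The component fixed by inertia is unramified.** -/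
theorem component_inG {c : GQ → M2 k} (hc : c ∈ localTwo ρ) {g : GQ} (hg : g ∈ inG 2) :
    component (ρ τ) (c g) = 0 :=
  eq_zero_inG hr P (isAdCocycle_comp hr P hc.1) (fun _ h => component_tame hr P hc h)
    (component_at_tau hr P hc) hg

include hr P in
theorem component_frob_zero : component (ρ τ) (ρ φ) = 0 ∧
    component (ρ τ) (ρ τ * ρ τ * ρ φ) = 0 := by
  have hs := hr.sq_add_ext (k := k) P.gen
  set S := ρ τ
  set R := ρ φ
  have h : R * S = S * S * R := IsPair.normalizes_ext hr P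
  have h2 : R * (S * S) = S * R := by rw [← mul_assoc, h, mul_assoc, h, ← mul_assoc, sq_sq hs]
  have hR : component S R = 0 := by
    rw [component, show S * R * (S * S) = S * (R * (S * S)) from mul_assoc _ _ _, h2,
      show S * S * R * S = S * S * (R * S) from mul_assoc _ _ _, h, ← mul_assoc, ← mul_assoc (S*S),
      sq_sq hs, ← zero_mul R, ← hs]
    simp only [add_mul, one_mul]
    abel
  refine ⟨hR, ?_⟩
  rw [component, show S * (S * S * R) * (S * S) = S * S * (S * R * (S * S)) by simp only [mul_assoc],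
    show S * S * (S * S * R) * S = S * S * (S * S * R * S) by simp only [mul_assoc], ← mul_add,
    ← mul_add]
  rw [← component, hR, mul_zero]

include hr P in
theorem trace_mul_frob (X : M2 k) :
    (component (ρ τ) X * ρ φ).trace = 0 ∧
      (component (ρ τ) X * (ρ τ * ρ τ * ρ φ)).trace = 0 := by
  obtain ⟨h1, h2⟩ := component_frob_zero (k := k) hr P
  constructor <;> rw [trace_component_mul]
  · rw [h1, mul_zero, Matrix.trace_zero]
  · rw [h2, mul_zero, Matrix.trace_zero]

include hr P in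
/-- Off the fixed component, a class on tame inertia is seen by one trace. -/
theorem eq_zero_tame_of_trace {c : GQ → M2 k} (hc : c ∈ localTwo ρ)
    (h : ∀ g ∈ tame 2, (c g * ρ φ).trace = 0) {g : GQ} (hg : g ∈ tame 2) : c g = 0 := by
  have hs := hr.sq_add_ext (k := k) P.gen
  have hC := component_tame hr P hc hg
  refine eq_zero_of_orth (hr.sq_add P.gen) (IsPair.normalizes hr P) ?_ ?_ (h g hg) ?_
  · rw [← trace_component hs, hC, Matrix.trace_zero]
  · have hS : component (ρ τ) (ρ τ) = ρ τ := by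
      rw [component]
      rw [show ρ τ * ρ τ * (ρ τ * ρ τ) = ρ τ from sq_sq hs, cube_eq_one hs, one_mul,
        add_assoc, add_self_zero, add_zero]
    rw [← hS, ← trace_component_mul, hC, zero_mul, Matrix.trace_zero]
  · have h' := h _ (conj_mem_tame (inG_le_decG 2 P.gen.mem) hg)
    rw [conj_tame hr hc.1 τ (inG_le_decG 2 P.gen.mem) hg, IsPair.map_inv_tau hr P, mul_assoc,
      Matrix.trace_mul_comm, show ρ τ * ρ φ * (ρ τ * ρ τ * c g) =
        (ρ τ * (ρ φ * (ρ τ * ρ τ))) * c g by simp only [mul_assoc],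
      Matrix.trace_mul_comm] at h'
    rwa [show ρ φ * (ρ τ * ρ τ) = ρ τ * ρ φ by
      rw [← mul_assoc, IsPair.normalizes_ext hr P, mul_assoc, IsPair.normalizes_ext hr P,
        ← mul_assoc, sq_sq hs], ← mul_assoc (ρ τ)] at h'

/-- The leading coefficients of a class. -/
def slotAt (r : GQ →* M2 k) (φ : GQ) (c : GQ → M2 k) (lam : k →+ ZMod 2) : Res 2 :=
  slot 2 (fun g => lam (c g * r φ).trace) 5

theorem hasDeep_trace {r : GQ →* M2 k} {c : GQ → M2 k} (hc : c ∈ localTwo r) (φ : GQ)
    (lam : k →+ ZMod 2) : HasDeep 2 (fun g => lam (c g * r φ).trace) 5 :=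
  hc.2.2 ((lam.comp (Matrix.traceAddMonoidHom (Fin 2) k)).comp (AddMonoidHom.mulRight (r φ)))

theorem slotAt_add {r : GQ →* M2 k} {φ : GQ} {c : GQ → M2 k} (hc : c ∈ localTwo r)
    (lam mu : k →+ ZMod 2) : slotAt r φ c (lam + mu) = slotAt r φ c lam + slotAt r φ c mu :=
  slot_add (p := 2) (n := 5) (by norm_num) (by norm_num) (by norm_num)
    (hasDeep_trace hc φ lam) (hasDeep_trace hc φ mu)

include hr P in
/-- **The leading coefficients of a class are given by one scalar.** -/
theorem exists_slotVec [Finite k] {c : GQ → M2 k} (hc : c ∈ localTwo ρ) :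
    ∃ v : k, ∀ lam : k →+ ZMod 2,
      slotAt ρ φ c lam = ZMod.castHom (dvd_refl 2) (Res 2) (lam v) := by
  classical
  set ι := ZMod.castHom (dvd_refl 2) (Res 2)
  have hι : Function.Injective ι := ι.injective
  have h01 : ∀ lam, slotAt ρ φ c lam = 0 ∨ slotAt ρ φ c lam = 1 := fun lam => by
    have hinv : ∀ g ∈ tame 2, lam (c g * ρ φ).trace =
        (1 : ZMod 2) * lam (c (φ⁻¹ * g * φ) * ρ φ).trace := fun g hg => by
      rw [one_mul, conj_tame hr hc.1 φ P.memD hg, mul_assoc (ρ φ⁻¹ * c g),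
        Matrix.trace_mul_comm (ρ φ⁻¹ * c g), mul_assoc (ρ φ) (ρ φ), ← mul_assoc (ρ φ) (ρ φ⁻¹),
        CFT.Tangent.map_mul_inv, one_mul, Matrix.trace_mul_comm]
    obtain ⟨x, hx, e1, e2⟩ := slot_map (p := 2) P.memD (a := (1 : ZMod 2))
      (by rw [zp_two, map_neg, map_one, ZMod.val_one, pow_one]) hinv (n := 5) (by norm_num)
      (by norm_num) (by norm_num) (hasDeep_trace hc φ lam)
    have hθ : thetaBar 2 φ = 1 := by
      rw [thetaBar, theta, P.fix_rad, div_self (rad_ne_zero 2), res_one]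
    rw [hθ, one_pow, one_mul, res_map_frobenius P.memD P.frob hx, ← e1] at e2
    rcases eq_or_ne (slotAt ρ φ c lam) 0 with h | h
    · exact Or.inl h
    · exact Or.inr ((mul_eq_left₀ h).mp ((pow_two _).symm.trans e2.symm))
  let σ : (k →+ ZMod 2) → ZMod 2 := fun lam => if slotAt ρ φ c lam = 0 then 0 else 1
  have hσ : ∀ lam, ι (σ lam) = slotAt ρ φ c lam := fun lam => by
    rcases h01 lam with h | h <;> simp [σ, h]
  let σ' : Module.Dual (ZMod 2) (Module.Dual (ZMod 2) k) :=
    (AddMonoidHom.mk' (fun f : Module.Dual (ZMod 2) k => σ f.toAddMonoidHom) fun f g => hι <| by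
      rw [map_add, hσ, hσ, hσ, show (f + g).toAddMonoidHom = f.toAddMonoidHom + g.toAddMonoidHom
        from rfl, slotAt_add hc]).toZModLinearMap 2
  haveI : Module.Finite (ZMod 2) k := Module.Finite.of_finite
  refine ⟨(Module.evalEquiv (ZMod 2) k).symm σ', fun lam => ?_⟩
  rw [← hσ]
  congr 1
  exact (Module.apply_evalEquiv_symm_apply (ZMod 2) k (lam.toZModLinearMap 2) σ').symm

include hr P in
/-- A combination killing the scalar is trivial on tame inertia. -/
theorem eq_zero_tame_of_slotVec {c d : GQ → M2 k} (hc : c ∈ localTwo ρ) (hd : d ∈ localTwo ρ)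
    {v w a b : k} (hv : ∀ lam, slotAt ρ φ c lam = ZMod.castHom (dvd_refl 2) (Res 2) (lam v))
    (hw : ∀ lam, slotAt ρ φ d lam = ZMod.castHom (dvd_refl 2) (Res 2) (lam w))
    (h : a * v + b * w = 0) {g : GQ} (hg : g ∈ tame 2) : (a • c + b • d) g = 0 := by
  have he : a • c + b • d ∈ localTwo ρ := add_mem (Submodule.smul_mem _ a hc) (Submodule.smul_mem _ b hd)
  refine eq_zero_tame_of_trace hr P he (fun g hg => eq_zero_of_forall_hom fun lam => ?_) hg
  have h5 := hasDeep_trace he φ lam
  have hsplit : (fun g => lam ((a • c + b • d) g * ρ φ).trace) =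
      (fun g => lam.comp (AddMonoidHom.mulLeft a) (c g * ρ φ).trace) +
        fun g => lam.comp (AddMonoidHom.mulLeft b) (d g * ρ φ).trace := by
    funext g
    simp [add_mul, Matrix.trace_add, Matrix.trace_smul]
  have h0 : slot 2 (fun g => lam ((a • c + b • d) g * ρ φ).trace) 5 = 0 := by
    rw [hsplit, slot_add (p := 2) (n := 5) (by norm_num) (by norm_num) (by norm_num)
      (hasDeep_trace hc φ _) (hasDeep_trace hd φ _)]
    show slotAt ρ φ c _ + slotAt ρ φ d _ = 0
    rw [hv, hw, ← map_add]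
    simp [← map_add, h]
  obtain ⟨α, hα, hdeep⟩ := h5.succ (by norm_num) (by norm_num) (Or.inr h0)
  exact hα.eq_zero_of_deep hdeep hg

include hr in
theorem finiteLevel_add_cobd {c : GQ → M2 k} (hc : IsFiniteLevel c) (Y : M2 k) :
    IsFiniteLevel (fun g => c g + cobdLin ρ Y g) := by
  obtain ⟨L₁, hL₁, h₁⟩ := hc
  obtain ⟨L₂, hL₂, h₂⟩ := hr.finite
  refine ⟨L₁ ⊔ L₂, IntermediateField.finiteDimensional_sup L₁ L₂, fun σ hσ => ?_⟩
  have e : r₀ σ = 1 := h₂ σ fun x hx => hσ x ((le_sup_right : L₂ ≤ L₁ ⊔ L₂) hx)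
  dsimp only
  rw [h₁ σ fun x hx => hσ x ((le_sup_left : L₁ ≤ L₁ ⊔ L₂) hx), cobdLin_apply, extRep_eq_one e,
    extRep_inv_eq_one e, one_mul, mul_one, sub_self, add_zero]

theorem isFiniteLevel_comp {c : GQ → M2 k} (hc : IsFiniteLevel c) (f : M2 k →+ M2 k) :
    IsFiniteLevel fun g => f (c g) := by
  obtain ⟨L, hL, h⟩ := hc
  exact ⟨L, hL, fun σ hσ => by simp only [h σ hσ, map_zero]⟩

include hr P in
/-- A class trivial on tame inertia has trivial complementary component. -/
theorem rest_eq_cobd {e : GQ → M2 k} (he : e ∈ localTwo ρ) (h0 : ∀ g ∈ tame 2, e g = 0) :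
    ∃ Y, ∀ g ∈ decG 2, restHom (ρ τ) (e g) = cobdLin ρ Y g := by
  have hs := hr.sq_add_ext (k := k) P.gen
  set S := ρ τ with hS
  set E := e τ
  have hCE : component S E = 0 := component_at_tau hr P he
  refine ⟨S * E * (S * S), fun g hg => ?_⟩
  set Y := S * E * (S * S)
  have hSinv : ρ τ⁻¹ = S * S := IsPair.map_inv_tau hr P
  have hYC : component S Y = 0 := by rw [component_conj hs, hCE]
  let e' : GQ → M2 k := fun g => e g + cobdLin ρ Y g
  have he' : IsAdCocycle ρ e' := he.1.add (isAdCocycle_cobdLin _ Y)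
  have hτ0 : e' τ = 0 := by
    show E + (S * Y * ρ τ⁻¹ - Y) = 0
    rw [hSinv, sub_eq_add', show S * Y * (S * S) = S * S * E * (S * S * (S * S)) by
      simp only [Y, mul_assoc], sq_sq hs, show E + (S * S * E * S + Y) = component S E by
        simp only [component, Y]; abel, hCE]
  have ht0 : ∀ g ∈ tame 2, e' g = 0 := fun g hg => by
    show e g + (ρ g * Y * ρ g⁻¹ - Y) = 0
    rw [h0 g hg, extRep_eq_one (hr.tame_one g hg), extRep_inv_eq_one (hr.tame_one g hg), one_mul,
      mul_one, sub_self, add_zero]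
  have hI : ∀ g ∈ inG 2, e' g = 0 := fun g hg => eq_zero_inG hr P he' ht0 hτ0 hg
  have hrel : e' φ = S * S * e' φ * S := by
    set t := (τ ^ 2)⁻¹ * (φ * τ * φ⁻¹)
    have h1 : φ * τ = τ ^ 2 * (t * φ) := by simp only [t]; group
    have h2 := congrArg e' h1
    rw [he', hτ0, mul_zero, zero_mul, zero_add, he', hI _ ((inG 2).pow_mem P.gen.mem 2), add_zero,
      he', ht0 _ P.conj, add_zero, extRep_eq_one (hr.tame_one _ P.conj),
      extRep_inv_eq_one (hr.tame_one _ P.conj), one_mul, mul_one, map_pow, pow_two] at h2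
    rwa [show ρ (τ ^ 2)⁻¹ = S by
      rw [pow_two, _root_.mul_inv_rev, map_mul, hSinv, sq_sq hs]] at h2
  have hX : restHom S (e' φ) = 0 := by
    set X := restHom S (e' φ) with hXdef
    have h1 : X = S * S * X * S := by
      conv_lhs => rw [hXdef, hrel, show S * S * e' φ * S = ρ τ⁻¹ * e' φ * ρ (τ⁻¹)⁻¹ by
        rw [inv_inv, hSinv], hS, restHom_ad hr P, inv_inv]
      rw [hSinv]
    have h2 : S * X * (S * S) = X := by
      conv_lhs => rw [h1]
      rw [show S * (S * S * X * S) * (S * S) = (S * (S * S)) * X * (S * (S * S)) by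
        simp only [mul_assoc], cube_eq_one' hs, one_mul, mul_one]
    have h3 : component S X = 0 := component_restHom hs _
    rwa [component, h2, ← h1, add_self_zero, zero_add] at h3
  have hzero := eq_zero_decG P (isAdCocycle_rest hr P he')
    (isFiniteLevel_comp (finiteLevel_add_cobd hr he.2.1 Y) _) hX
    (fun g hg => by rw [hI g hg, map_zero]) hg
  rw [map_add, cobdLin_apply, map_sub, restHom_ad hr P, restHom_apply S Y, hYC, add_zero] at hzero
  rw [cobdLin_apply, eq_neg_of_add_eq_zero_left hzero, neg_eq_self]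

include hr P in
/-- A class of trace zero at Frobenius has trivial fixed component. -/
theorem component_eq_cobd {e : GQ → M2 k} (he : e ∈ localTwo ρ) (h : (e φ).trace = 0) :
    ∃ Y, ∀ g ∈ decG 2, component (ρ τ) (e g) = cobdLin ρ Y g := by
  have hs := hr.sq_add_ext (k := k) P.gen
  set S := ρ τ with hS
  set R := ρ φ
  set X := component S (e φ) with hX
  set x := (X * S).trace
  have htS : S.trace = 1 := trace_extRep (hr.sq_add P.gen)
  obtain ⟨hCR, hCR'⟩ := component_frob_zero (k := k) hr P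
  have htR : R.trace = 0 ∧ (S * S * R).trace = 0 :=
    ⟨by rw [← trace_component hs, hCR, Matrix.trace_zero],
      by rw [← trace_component hs, hCR', Matrix.trace_zero]⟩
  have h2 : (2 : k) = 0 := two_eq_zero'
  have hX1 : X = x • 1 := by
    rw [← sub_eq_zero]
    refine eq_zero_of_orth (hr.sq_add P.gen) (IsPair.normalizes hr P) ?_ ?_ ?_ ?_
    · rw [Matrix.trace_sub, hX, trace_component hs, h, Matrix.trace_smul, Matrix.trace_one,
        Fintype.card_fin, Nat.cast_ofNat, h2, smul_zero, sub_zero]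
    · rw [sub_mul, smul_mul_assoc, one_mul, Matrix.trace_sub, Matrix.trace_smul]
      show x - x • S.trace = 0
      rw [htS, smul_eq_mul, mul_one, sub_self]
    · rw [sub_mul, smul_mul_assoc, one_mul, Matrix.trace_sub, Matrix.trace_smul,
        (trace_mul_frob hr P _).1, htR.1, smul_zero, sub_zero]
    · rw [sub_mul, smul_mul_assoc, one_mul, Matrix.trace_sub, Matrix.trace_smul,
        (trace_mul_frob hr P _).2, htR.2, smul_zero, sub_zero]
  refine ⟨x • S, fun g hg => ?_⟩
  have hcoc : IsAdCocycle ρ fun g => component S (e g) + cobdLin ρ (x • S) g :=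
    (isAdCocycle_comp hr P he.1).add (isAdCocycle_cobdLin _ _)
  have hfin : IsFiniteLevel fun g => component S (e g) + cobdLin ρ (x • S) g :=
    finiteLevel_add_cobd hr (isFiniteLevel_comp he.2.1 (compHom S)) _
  have hφ : component S (e φ) + cobdLin ρ (x • S) φ = 0 := by
    rw [← hX, hX1, cobdLin_apply, mul_smul_comm, smul_mul_assoc, ← smul_sub, ← smul_add, sub_eq_add',
      IsPair.normalizes_ext hr P, mul_assoc (S * S), CFT.Tangent.map_mul_inv, mul_one,
      show 1 + (S * S + S) = S * S + S + 1 by abel, hs, smul_zero]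
  have hI : ∀ g ∈ inG 2, component S (e g) + cobdLin ρ (x • S) g = 0 := fun g hg => by
    have hcomm : ρ g * S = S * ρ g := by
      obtain ⟨i, hi⟩ := P.gen.gen g hg
      rw [show g = τ ^ i * ((τ ^ i)⁻¹ * g) by group, map_mul, map_pow,
        extRep_eq_one (hr.tame_one _ hi), mul_one, hS, ← pow_succ, pow_succ']
    rw [component_inG hr P he hg, zero_add, cobdLin_apply, mul_smul_comm, smul_mul_assoc, hcomm,
      mul_assoc, CFT.Tangent.map_mul_inv, mul_one, sub_self]
  have hz := eq_zero_decG P hcoc hfin hφ hI hg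
  rw [eq_neg_of_add_eq_zero_left hz, neg_eq_self]

include hr in
/-- **The fixed component of a class is unramified.** -/
theorem component_eq_zero_of_mem {c : GQ → M2 k} (hc : c ∈ localTwo ρ) {σ : GQ} (hσ : σ ∈ inG 2)
    (hσ1 : r₀ σ ≠ 1) : ∀ g ∈ inG 2, component (ρ σ) (c g) = 0 := by
  intro g hg
  obtain ⟨τ, φ, P⟩ := exists_isPair
  have h := component_inG hr P hc hg
  obtain ⟨i, hi⟩ := hr.eq_pow P.gen hσ
  rcases pow_cases (show r₀ τ * r₀ τ * r₀ τ = 1 by
    rw [← map_mul, ← map_mul, ← sq, ← pow_succ]; exact hr.tame_one _ P.gen.cube_mem) i with e | e | e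
  · exact absurd (hi.trans e) hσ1
  · rwa [show ρ σ = ρ τ from congrArg (RingHom.mapMatrix (algebraMap (ZMod 2) k)) (hi.trans e)]
  · rw [show ρ σ = ρ τ * ρ τ by
      rw [← map_mul]
      exact congrArg (RingHom.mapMatrix (algebraMap (ZMod 2) k))
        (hi.trans (e.trans (map_mul r₀ τ τ).symm)), component_sq (hr.sq_add_ext P.gen)]
    exact h

end Fermat.Agent.RT.Two.Local
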