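import Fermat.Agent.RT.Two.Local.Residual

/-!
# The two components of an adjoint matrix under an element of order three
-/

set_option autoImplicit false
set_option linter.style.haveILetI false
set_option linter.unusedSectionVars false

noncomputable section

namespace Fermat.Agent.RT.Two.Local

open Fermat.Agent.Deform Fermat.Agent.Arith Fermat.Agent.CFT.Tangent Fermat.Agent.CFT.Flat Matrix

theorem normalize_cases : ∀ s T T' : M2 (ZMod 2), s * s + s + 1 = 0 → T * T' = 1 →
    T * s = s * T ∨ T * s = s * s * T := by decide

theorem expand_single : ∀ s R : M2 (ZMod 2), s * s + s + 1 = 0 → R ≠ 0 → R * s = s * s * R →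
    ∀ i j : Fin 2, Matrix.single i j (1 : ZMod 2) =
      ((Matrix.single i j 1 * s).trace + (Matrix.single i j (1 : ZMod 2)).trace) • (1 : M2 (ZMod 2)) +
      (Matrix.single i j (1 : ZMod 2)).trace • s +
      (Matrix.single i j 1 * (s * s * R)).trace • R +
      (Matrix.single i j 1 * R).trace • (s * s * R) := by decide

theorem trace_two : ∀ s : M2 (ZMod 2), s * s + s + 1 = 0 → s.trace = 1 := by decide

variable {k : Type} [Field k] [Algebra (ZMod 2) k]

theorem charP_two : CharP k 2 :=
  charP_of_injective_algebraMap (algebraMap (ZMod 2) k).injective 2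

theorem two_eq_zero' : (2 : k) = 0 := by
  haveI : CharP k 2 := charP_two
  exact_mod_cast CharP.cast_eq_zero k 2

theorem add_self_zero (X : M2 k) : X + X = 0 := by
  rw [← two_smul k X, two_eq_zero', zero_smul]

theorem neg_eq_self (X : M2 k) : -X = X := neg_eq_of_add_eq_zero_left (add_self_zero X)

theorem sub_eq_add' (X Y : M2 k) : X - Y = X + Y := by rw [sub_eq_add_neg, neg_eq_self]

section Alg

variable {s : M2 k} (hs : s * s + s + 1 = 0)

include hs

theorem sq_eq_add_one : s * s = s + 1 := by
  rw [← sub_eq_zero, sub_eq_add', ← hs]; abel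

theorem cube_eq_one : s * s * s = 1 := by
  rw [sq_eq_add_one hs, add_mul, one_mul, sq_eq_add_one hs, add_right_comm, add_self_zero, zero_add]

theorem cube_eq_one' : s * (s * s) = 1 := by rw [← mul_assoc, cube_eq_one hs]

theorem sq_sq : s * s * (s * s) = s := by rw [← mul_assoc, cube_eq_one hs, one_mul]

/-- Conjugation by `s` fixes the component. -/
theorem component_conj (X : M2 k) : component s (s * X * (s * s)) = component s X := by
  unfold component
  rw [show s * (s * X * (s * s)) * (s * s) = s * s * X * ((s * s) * (s * s)) by simp only [mul_assoc],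
    sq_sq hs, show s * s * (s * X * (s * s)) * s = (s * s * s) * X * (s * s * s) by
      simp only [mul_assoc], cube_eq_one hs, one_mul, mul_one]
  abel

theorem component_sq (X : M2 k) : component (s * s) X = component s X := by
  unfold component
  rw [sq_sq hs]
  abel

theorem component_idem (X : M2 k) : component s (component s X) = component s X := by
  have h : component s (s * s * X * s) = component s X := by
    conv_rhs => rw [← component_conj hs X, ← component_conj hs]
    rw [show s * (s * X * (s * s)) * (s * s) = s * s * X * ((s * s) * (s * s)) by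
      simp only [mul_assoc], sq_sq hs]
  have hadd : ∀ Y Z, component s (Y + Z) = component s Y + component s Z := fun Y Z => by
    simp only [component, mul_add, add_mul]; abel
  conv_lhs => arg 2; rw [component]
  rw [hadd, hadd, component_conj hs, h, add_self_zero, zero_add]

theorem trace_conj_s (X : M2 k) : (s * X * (s * s)).trace = X.trace := by
  rw [Matrix.trace_mul_comm, ← mul_assoc, cube_eq_one hs, one_mul]

theorem trace_component (X : M2 k) : (component s X).trace = X.trace := by
  have h : (s * s * X * s).trace = X.trace := by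
    rw [Matrix.trace_mul_comm, ← mul_assoc, cube_eq_one' hs, one_mul]
  rw [component, Matrix.trace_add, Matrix.trace_add, trace_conj_s hs, h]
  linear_combination X.trace * two_eq_zero' (k := k)

omit hs in
theorem trace_component_mul (s X Y : M2 k) :
    (component s X * Y).trace = (X * component s Y).trace := by
  simp only [component, add_mul, mul_add, Matrix.trace_add]
  have h1 : (s * X * (s * s) * Y).trace = (X * (s * s * Y * s)).trace := by
    rw [show s * X * (s * s) * Y = s * (X * (s * s * Y)) by simp only [mul_assoc],
      Matrix.trace_mul_comm]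
    simp only [mul_assoc]
  have h2 : (s * s * X * s * Y).trace = (X * (s * Y * (s * s))).trace := by
    rw [show s * s * X * s * Y = s * s * (X * (s * Y)) by simp only [mul_assoc],
      Matrix.trace_mul_comm]
    simp only [mul_assoc]
  rw [h1, h2]
  ring

/-- An element normalising `⟨s⟩` commutes with the component. -/
theorem component_normalizer {T T' : M2 k} (h : T * s = s * T ∨ T * s = s * s * T)
    (hT : T * T' = 1) (X : M2 k) : component s (T * X * T') = T * component s X * T' := by
  have hT' : T' * T = 1 := mul_eq_one_comm.mp hT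
  have key : ∀ u v : M2 k, T * u = v * T → T' * v = u * T' := fun u v e => by
    calc T' * v = T' * (v * T) * T' := by rw [mul_assoc, mul_assoc v, hT, mul_one]
      _ = u * T' := by rw [← e, ← mul_assoc, hT', one_mul]
  have step : ∀ u v u' v' : M2 k, T * u = v * T → T * u' = v' * T →
      v * (T * X * T') * v' = T * (u * X * u') * T' := fun u v u' v' e e' => by
    calc v * (T * X * T') * v' = (v * T) * X * (T' * v') := by simp only [mul_assoc]
      _ = T * (u * X * u') * T' := by rw [← e, key u' v' e']; simp only [mul_assoc]
  rcases h with h | h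
  · have h2 : T * (s * s) = s * s * T := by rw [← mul_assoc, h, mul_assoc, h, ← mul_assoc]
    simp only [component, step _ _ _ _ h h2, step _ _ _ _ h2 h, mul_add, add_mul]
  · have h2 : T * (s * s) = s * T := by
      rw [← mul_assoc, h, mul_assoc, h, ← mul_assoc, sq_sq hs]
    simp only [component, step _ _ _ _ h2 h, step _ _ _ _ h h2, mul_add, add_mul]
    abel

end Alg

variable {r₀ : GQ →* M2 (ZMod 2)} {τ : GQ}

theorem trace_extRep (hs : r₀ τ * r₀ τ + r₀ τ + 1 = 0) : (extRep k r₀ τ).trace = 1 := by
  show (RingHom.mapMatrix (algebraMap (ZMod 2) k) (r₀ τ)).trace = 1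
  rw [← map_one (algebraMap (ZMod 2) k), ← trace_two _ hs]
  exact (AddMonoidHom.map_trace (algebraMap (ZMod 2) k) (r₀ τ)).symm

theorem extRep_mul (g : GQ) : RingHom.mapMatrix (algebraMap (ZMod 2) k) (r₀ g) = extRep k r₀ g := rfl

/-- The image normalises the subgroup of order three. -/
theorem extRep_normalizes (hs : r₀ τ * r₀ τ + r₀ τ + 1 = 0) (g : GQ) :
    extRep k r₀ g * extRep k r₀ τ = extRep k r₀ τ * extRep k r₀ g ∨
      extRep k r₀ g * extRep k r₀ τ = extRep k r₀ τ * extRep k r₀ τ * extRep k r₀ g := by
  refine (normalize_cases _ _ _ hs (CFT.Tangent.map_mul_inv r₀ g)).imp (fun e => ?_) fun e => ?_ <;>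
  · have := congrArg (RingHom.mapMatrix (algebraMap (ZMod 2) k)) e
    simpa only [map_mul, extRep_mul] using this

/-- Matrices orthogonal to the four basic elements vanish. -/
theorem eq_zero_of_orth {φ : GQ} (hs : r₀ τ * r₀ τ + r₀ τ + 1 = 0)
    (hR : r₀ φ * r₀ τ = r₀ τ * r₀ τ * r₀ φ) {Y : M2 k} (h1 : Y.trace = 0)
    (h2 : (Y * extRep k r₀ τ).trace = 0) (h3 : (Y * extRep k r₀ φ).trace = 0)
    (h4 : (Y * (extRep k r₀ τ * extRep k r₀ τ * extRep k r₀ φ)).trace = 0) : Y = 0 := by
  ext i j
  have hne : r₀ φ ≠ 0 := fun h => by
    have := CFT.Tangent.map_mul_inv r₀ φ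
    rw [h, zero_mul] at this
    exact zero_ne_one this
  have e := expand_single _ _ hs hne hR j i
  have hmap : ∀ (x : ZMod 2) (M : M2 (ZMod 2)),
      RingHom.mapMatrix (algebraMap (ZMod 2) k) (x • M) =
        algebraMap (ZMod 2) k x • RingHom.mapMatrix (algebraMap (ZMod 2) k) M := fun x M => by
    ext i j; simp
  have e' := congrArg (RingHom.mapMatrix (algebraMap (ZMod 2) k)) e
  rw [map_add, map_add, map_add, hmap, hmap, hmap, hmap, map_one, map_mul, map_mul, extRep_mul,
    extRep_mul, show RingHom.mapMatrix (algebraMap (ZMod 2) k) (Matrix.single j i (1 : ZMod 2)) =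
      Matrix.single j i (1 : k) by simp] at e'
  have key := congrArg (fun M => (Y * M).trace) e'
  simp only [mul_add, mul_smul_comm, Matrix.trace_add, Matrix.trace_smul, mul_one, h1, h2, h3, h4,
    smul_zero, add_zero] at key
  simpa [Matrix.trace_mul_single] using key

end Fermat.Agent.RT.Two.Local
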