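import Fermat.Agent.RT.Two.Local.Residual
import Fermat.Agent.RT.Two.Local.Radical

/-!
# Flat classes satisfy the local condition at two

Each entry of a flat class, followed by a functional, is a translation character of a module of
sixteen elements carrying an order.
-/

set_option autoImplicit false
set_option linter.style.haveILetI false
set_option linter.unusedSectionVars false

noncomputable section

namespace Fermat.Agent.RT.Two.Local

open Fermat.Agent.Deform Fermat.Agent.Arith Fermat.Agent.CFT.Tangent Fermat.Agent.CFT.Flat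
open Fermat.Agent.FiniteFlat Matrix

variable {k : Type} [Field k] [Finite k] [Algebra (ZMod 2) k] {r₀ : GQ →* M2 (ZMod 2)}

theorem matrix_ext {A : Type} [Field A] {X Y : M2 (DualNumber A)} (h₁ : fstM X = fstM Y)
    (h₂ : sndM X = sndM Y) : X = Y := by
  ext i j
  exacts [congrFun (congrFun h₁ i) j, congrFun (congrFun h₂ i) j]

/-- A functional applied to the entries. -/
def mapEntries (lam : k →+ ZMod 2) : M2 k →+ M2 (ZMod 2) :=
  AddMonoidHom.mapMatrix lam

theorem apply_mul_algebraMap (lam : k →+ ZMod 2) (x : k) (c : ZMod 2) :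
    lam (x * algebraMap (ZMod 2) k c) = lam x * c := by
  rcases zmod_two_cases c with rfl | rfl <;> simp

theorem mapEntries_mul_ext (lam : k →+ ZMod 2) (X : M2 k) (g : GQ) :
    mapEntries lam (X * extRep k r₀ g) = mapEntries lam X * r₀ g := by
  ext i j
  simp [mapEntries, Matrix.mul_apply, extRep_apply, apply_mul_algebraMap]

theorem mapEntries_ext_mul (lam : k →+ ZMod 2) (X : M2 k) (g : GQ) :
    mapEntries lam (extRep k r₀ g * X) = r₀ g * mapEntries lam X := by
  ext i j
  simp [mapEntries, Matrix.mul_apply, extRep_apply]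
  simp [mul_comm (algebraMap (ZMod 2) k _), apply_mul_algebraMap, mul_comm (r₀ g i _)]

variable {U : GQ →* M2 (DualNumber k)} (hU : ∀ σ, fstM (U σ) = extRep k r₀ σ)

/-- The deformation over the dual numbers of `𝔽₂` cut out by a functional. -/
def cutRep (lam : k →+ ZMod 2) : GQ →* M2 (DualNumber (ZMod 2)) where
  toFun g := inlM (r₀ g) + epsM (mapEntries lam (sndM (U g)))
  map_one' := by
    refine matrix_ext ?_ ?_
    · simp
    · simp
  map_mul' g h := by
    refine matrix_ext ?_ ?_
    · simp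
    · simp only [map_mul, sndM_add, sndM_inlM, sndM_epsM, zero_add, sndM_mul, fstM_add,
        fstM_inlM, fstM_epsM, add_zero, hU, map_add, mapEntries_mul_ext, mapEntries_ext_mul]

theorem fstM_cutRep (lam : k →+ ZMod 2) (g : GQ) : fstM (cutRep hU lam g) = r₀ g := by
  simp [cutRep]

theorem sndM_cutRep (lam : k →+ ZMod 2) (g : GQ) :
    sndM (cutRep hU lam g) = mapEntries lam (sndM (U g)) := by
  simp [cutRep]

/-- The coordinates of the product of a matrix and a vector. -/
theorem fst_mulVec {A : Type} [Field A] (T : M2 (DualNumber A)) (v : Fin 2 → DualNumber A)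
    (i : Fin 2) : ((T *ᵥ v) i).fst = (fstM T *ᵥ fun j => (v j).fst) i := by
  simp [Matrix.mulVec, dotProduct, Fin.sum_univ_two]

theorem snd_mulVec {A : Type} [Field A] (T : M2 (DualNumber A)) (v : Fin 2 → DualNumber A)
    (i : Fin 2) : ((T *ᵥ v) i).snd =
      (fstM T *ᵥ fun j => (v j).snd) i + (sndM T *ᵥ fun j => (v j).fst) i := by
  simp [Matrix.mulVec, dotProduct, Fin.sum_univ_two]
  ring

include hU in
/-- The order descends to the deformation cut out by a nonzero functional. -/
theorem nonempty_galOrder_cutRep (O : GalOrder 2 (MatMod U)) {lam : k →+ ZMod 2} (hlam : lam ≠ 0) :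
    Nonempty (GalOrder 2 (MatMod (cutRep hU lam))) := by
  classical
  obtain ⟨x₀, hx₀⟩ : ∃ x, lam x = 1 := by
    by_contra h
    push Not at h
    exact hlam (AddMonoidHom.ext fun x => (zmod_two_cases (lam x)).resolve_right (h x))
  let S : AddSubgroup (MatMod U) :=
    { carrier := {v | ∃ a : Fin 2 → ZMod 2,
        ∀ i, (((MatMod.of U).symm v) i).fst = algebraMap (ZMod 2) k (a i)}
      zero_mem' := ⟨0, fun i => by simp⟩
      add_mem' := fun {v w} ⟨a, ha⟩ ⟨b, hb⟩ => ⟨a + b, fun i => by
        simp [ha i, hb i]⟩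
      neg_mem' := fun {v} ⟨a, ha⟩ => ⟨-a, fun i => by
        simp only [map_neg, Pi.neg_apply, TrivSqZeroExt.fst_neg, ha i]⟩ }
  have hS : ∀ (g : GQ) (v : MatMod U), v ∈ S → g • v ∈ S := by
    rintro g v ⟨a, ha⟩
    refine ⟨r₀ g *ᵥ a, fun i => ?_⟩
    show ((U g *ᵥ (MatMod.of U).symm v) i).fst = _
    rw [fst_mulVec, hU]
    simp [Matrix.mulVec, dotProduct, Fin.sum_univ_two, ha, extRep_apply]
  letI : DistribMulAction GQ S :=
    { smul := fun g v => ⟨g • v.1, hS g v.1 v.2⟩
      one_smul := fun v => Subtype.ext (one_smul GQ v.1)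
      mul_smul := fun g h v => Subtype.ext (mul_smul g h v.1)
      smul_zero := fun g => Subtype.ext (smul_zero g)
      smul_add := fun g v w => Subtype.ext (smul_add g v.1 w.1) }
  obtain ⟨retr, hretr⟩ : ∃ retr : k →ₗ[ZMod 2] ZMod 2, retr 1 = 1 := by
    obtain ⟨f, hf⟩ := Module.Projective.exists_dual_ne_zero (ZMod 2) (one_ne_zero (α := k))
    exact ⟨f, (zmod_two_cases _).resolve_left hf⟩
  have hret : ∀ c, retr (algebraMap (ZMod 2) k c) = c := fun c => by
    rw [Algebra.algebraMap_eq_smul_one, map_smul, hretr, smul_eq_mul, mul_one]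
  let π : S →+ MatMod (cutRep hU lam) := AddMonoidHom.mk'
    (fun v => MatMod.of _ fun i => (TrivSqZeroExt.inl (retr (((MatMod.of U).symm v.1) i).fst) +
      TrivSqZeroExt.inr (lam (((MatMod.of U).symm v.1) i).snd) : DualNumber (ZMod 2)))
    fun v w => by
      rw [← map_add]
      congr 1
      funext i
      refine TrivSqZeroExt.ext ?_ ?_ <;> simp
  have hπ : Function.Surjective π := by
    intro w
    obtain ⟨w, rfl⟩ := (MatMod.of (cutRep hU lam)).surjective w
    refine ⟨⟨MatMod.of U fun i => TrivSqZeroExt.inl (algebraMap (ZMod 2) k (w i).fst) +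
      TrivSqZeroExt.inr (x₀ * algebraMap (ZMod 2) k (w i).snd), ⟨fun i => (w i).fst, fun i => by
        simp⟩⟩, ?_⟩
    show MatMod.of _ _ = _
    congr 1
    funext i
    refine TrivSqZeroExt.ext ?_ ?_ <;> simp [hret, apply_mul_algebraMap, hx₀]
  refine ⟨(O.restrict S.subtype Subtype.val_injective fun σ v => rfl).quotient π hπ fun g v => ?_⟩
  obtain ⟨a, ha⟩ := v.2
  have hπf : ∀ i, (((MatMod.of _).symm (π v)) i).fst = a i := fun i => by
    show (TrivSqZeroExt.inl (retr (((MatMod.of U).symm v.1) i).fst) +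
      TrivSqZeroExt.inr (lam (((MatMod.of U).symm v.1) i).snd) : DualNumber (ZMod 2)).fst = _
    simp [ha, hret]
  have hπs : ∀ i, (((MatMod.of _).symm (π v)) i).snd = lam (((MatMod.of U).symm v.1) i).snd :=
    fun i => by
    show (TrivSqZeroExt.inl (retr (((MatMod.of U).symm v.1) i).fst) +
      TrivSqZeroExt.inr (lam (((MatMod.of U).symm v.1) i).snd) : DualNumber (ZMod 2)).snd = _
    simp
  show MatMod.of _ _ = MatMod.of _ (cutRep hU lam g *ᵥ _)
  congr 1
  funext i
  refine TrivSqZeroExt.ext ?_ ?_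
  · rw [fst_mulVec, fstM_cutRep]
    show (TrivSqZeroExt.inl (retr ((U g *ᵥ (MatMod.of U).symm v.1) i).fst) +
      TrivSqZeroExt.inr (lam ((U g *ᵥ (MatMod.of U).symm v.1) i).snd) : DualNumber (ZMod 2)).fst = _
    rw [TrivSqZeroExt.fst_add, TrivSqZeroExt.fst_inl, TrivSqZeroExt.fst_inr, add_zero, fst_mulVec,
      hU]
    simp [Matrix.mulVec, dotProduct, Fin.sum_univ_two, ha, extRep_apply, ← map_mul, ← map_add,
      hret, hπf]
  · rw [snd_mulVec, fstM_cutRep, sndM_cutRep]
    show (TrivSqZeroExt.inl (retr ((U g *ᵥ (MatMod.of U).symm v.1) i).fst) +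
      TrivSqZeroExt.inr (lam ((U g *ᵥ (MatMod.of U).symm v.1) i).snd) : DualNumber (ZMod 2)).snd = _
    rw [TrivSqZeroExt.snd_add, TrivSqZeroExt.snd_inl, TrivSqZeroExt.snd_inr, zero_add, snd_mulVec,
      hU]
    simp [Matrix.mulVec, dotProduct, Fin.sum_univ_two, ha, extRep_apply, mapEntries,
      apply_mul_algebraMap, hπf, hπs, mul_comm (algebraMap (ZMod 2) k _), mul_comm (r₀ g i _)]

include hU in
/-- An entry of a class with an order, followed by a functional, is deep. -/
theorem hasDeep_entry (hr : IsSupersingularTwo r₀) {b : GQ → M2 k}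
    (hb : IsAdCocycle (extRep k r₀) b) (O : GalOrder 2 (MatMod U))
    (hI : ∀ σ ∈ inG 2, sndM (U σ) = b σ * extRep k r₀ σ) (lam : k →+ ZMod 2) (i j : Fin 2) :
    HasDeep 2 (fun g => lam (b g i j)) 5 := by
  classical
  rcases eq_or_ne lam 0 with rfl | hlam
  · exact (hasDeep_zero 5).congr fun g _ => by simp
  obtain ⟨τ₁, hτ₁⟩ := exists_isGen
  set τ := τ₁ ^ 4 with hτdef
  have hτ : IsGen τ := hτ₁.pow_four
  obtain ⟨O'⟩ := nonempty_galOrder_cutRep hU O hlam
  set T := cutRep hU lam τ with hT
  haveI : Finite (DualNumber (ZMod 2)) := finite_dualNumber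
  haveI : CharP (DualNumber (ZMod 2)) 2 := charP_dualNumber
  haveI : CharP k 2 := charP_of_injective_algebraMap (algebraMap (ZMod 2) k).injective 2
  haveI : Fintype (MatMod (cutRep hU lam)) := Fintype.ofFinite _
  have hkill : ∀ x : MatMod (cutRep hU lam), x + x = 0 := fun x => by
    rw [← two_nsmul]; exact matMod_kill x
  have hsq : r₀ τ * r₀ τ + r₀ τ + 1 = 0 := hr.sq_add hτ
  have hT3 : T * T * T = 1 := by
    rw [hT, ← map_mul, ← map_mul, show τ * τ * τ = ((τ₁ ^ 3) ^ 2) ^ 2 by
      rw [hτdef, ← pow_mul, ← pow_mul, ← pow_add, ← pow_add], pow_two, map_mul]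
    have h := hτ₁.cube_mem
    have h2 := (tame 2).pow_mem h 2
    set E := cutRep hU lam ((τ₁ ^ 3) ^ 2)
    refine matrix_ext ?_ ?_
    · rw [fstM_mul, fstM_cutRep, hr.tame_one _ h2, mul_one, fstM_one]
    · rw [sndM_mul, fstM_cutRep, hr.tame_one _ h2, one_mul, mul_one, sndM_one]
      ext a b
      rcases zmod_two_cases (sndM E a b) with e | e <;>
        simp only [Matrix.add_apply, Matrix.zero_apply, e] <;> decide
  have hTrel : T * T + T + 1 = 0 := by
    set E := T * T + T + 1 with hE
    have hfst : fstM E = 0 := by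
      rw [hE, fstM_add, fstM_add, fstM_mul, fstM_one, hT, fstM_cutRep, hsq]
    have h0 : (T - 1) * E = 0 := by
      rw [show (T - 1) * E = T * T * T - 1 by rw [hE]; noncomm_ring, hT3, sub_self]
    have hsnd : sndM E = 0 := by
      have h1 := congrArg sndM h0
      rw [sndM_mul, hfst, mul_zero, add_zero, fstM_sub, fstM_one, hT, fstM_cutRep,
        show sndM (0 : M2 (DualNumber (ZMod 2))) = 0 from rfl] at h1
      have hinv : r₀ τ * (r₀ τ - 1) = 1 := by
        rw [mul_sub, mul_one, sub_eq_iff_eq_add]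
        have : ∀ s : M2 (ZMod 2), s * s + s + 1 = 0 → s * s = 1 + s := by decide
        exact this _ hsq
      rw [← one_mul (sndM E), ← hinv, mul_assoc, h1, mul_zero]
    exact matrix_ext (by rw [hfst]; rfl) (by rw [hsnd]; rfl)
  have hτM : ∀ x : MatMod (cutRep hU lam), τ • τ • x + τ • x + x = 0 := fun x => by
    obtain ⟨v, rfl⟩ := (MatMod.of (cutRep hU lam)).surjective x
    rw [MatMod.smul_of, MatMod.smul_of, mulVec_mulVec, ← map_add, ← map_add, ← hT]
    conv_lhs => rw [show v = (1 : M2 (DualNumber (ZMod 2))) *ᵥ v from (one_mulVec v).symm]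
    rw [mulVec_mulVec, mulVec_mulVec, ← add_mulVec, ← add_mulVec, mul_one, mul_one, hTrel,
      zero_mulVec, map_zero]
  let A : AddSubgroup (MatMod (cutRep hU lam)) :=
    { carrier := {v | ∀ a, (((MatMod.of _).symm v) a).fst = 0}
      zero_mem' := fun a => by simp
      add_mem' := fun {v w} hv hw a => by simp [hv a, hw a]
      neg_mem' := fun {v} hv a => by simp [hv a] }
  have hA : Nat.card A ≤ 4 := by
    refine le_of_le_of_eq (Nat.card_le_card_of_injective
      (fun v : A => fun a => (((MatMod.of _).symm v.1) a).snd) fun v w h => ?_)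
      (show Nat.card (Fin 2 → ZMod 2) = 4 by simp)
    exact Subtype.ext ((MatMod.of _).symm.injective (funext fun a =>
      TrivSqZeroExt.ext ((v.2 a).trans (w.2 a).symm) (congrFun h a)))
  have hmem : ∀ g ∈ tame 2, ∀ x : MatMod (cutRep hU lam), g • x - x ∈ A := fun g hg x a => by
    obtain ⟨v, rfl⟩ := (MatMod.of (cutRep hU lam)).surjective x
    rw [MatMod.smul_of, ← map_sub, AddEquiv.symm_apply_apply, Pi.sub_apply, TrivSqZeroExt.fst_sub,
      fst_mulVec, fstM_cutRep, hr.tame_one g hg, one_mulVec, sub_self]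
  have hfixA : ∀ g ∈ tame 2, ∀ x ∈ A, g • x = x := fun g hg x hx => by
    obtain ⟨v, rfl⟩ := (MatMod.of (cutRep hU lam)).surjective x
    have hv : ∀ a, (v a).fst = 0 := fun a => by simpa using hx a
    rw [MatMod.smul_of]
    congr 1
    funext a
    refine TrivSqZeroExt.ext ?_ ?_
    · rw [fst_mulVec, fstM_cutRep, hr.tame_one g hg, one_mulVec]
    · rw [snd_mulVec, fstM_cutRep, hr.tame_one g hg, one_mulVec]
      simp [Matrix.mulVec, dotProduct, hv]
  let m : MatMod (cutRep hU lam) :=
    MatMod.of _ (fun a => TrivSqZeroExt.inl (if a = j then 1 else 0))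
  let φ : MatMod (cutRep hU lam) →+ ZMod 2 :=
    AddMonoidHom.mk' (fun v => (((MatMod.of _).symm v) i).snd) fun v w => by simp
  have hc : ∀ g ∈ tame 2, φ (g • m - m) = lam (b g i j) := fun g hg => by
    show (((MatMod.of _).symm (g • m - m)) i).snd = _
    rw [MatMod.smul_of, ← map_sub, AddEquiv.symm_apply_apply, Pi.sub_apply, TrivSqZeroExt.snd_sub,
      snd_mulVec, sndM_cutRep, fstM_cutRep, hr.tame_one g hg, one_mulVec,
      hI g ((mem_tame 2).mp hg).1, extRep_eq_one (hr.tame_one g hg), mul_one]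
    fin_cases j <;> simp [Matrix.mulVec, dotProduct, mapEntries]
  have h3 : HasDeep 2 (fun g => lam (b g i j)) 3 := by
    obtain ⟨H, h1, h2, h3, h4⟩ := exists_bdd_level (p := 2) O
    have hH : IsTameHom 2 H fun g => lam (b g i j) :=
      ⟨h1, h2, fun g hg h _ => by rw [hr.tame_add hb hg, Matrix.add_apply, map_add],
        fun g hg => by
          have e := hI g ((mem_tame 2).mp (h2 hg)).1
          rw [h4 g hg, sndM_one, extRep_eq_one (hr.tame_one g (h2 hg)), mul_one] at e
          rw [← e]; exact map_zero lam⟩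
    exact hH.exists_unit_radical h3
  have h4 := hasDeep_four O' hkill hτ.mem hτ.prim hτ.gen hτM A hA hmem hfixA m φ
    (h3.congr fun g hg => (hc g hg).symm)
  exact ((h4.succ (by norm_num) (by norm_num) (Or.inl (by norm_num))).congr fun g hg => hc g hg)

omit hU

/-- **Flat classes satisfy the local condition at two.** -/
theorem mem_localTwo_of_flat (hr : IsSupersingularTwo r₀) {b : GQ → M2 k}
    (hb : IsAdCocycle (extRep k r₀) b) (hfin : IsFiniteLevel b)
    (hflat : IsFlatClassTwo (extRep k r₀) b) : b ∈ localTwo (extRep k r₀) := by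
  obtain ⟨U, ⟨O⟩, hU, hI⟩ := hflat
  refine ⟨hb, hfin, fun ℓ => ?_⟩
  have hdec : ∀ g, ℓ (b g) = ∑ i : Fin 2, ∑ j : Fin 2, ℓ (Matrix.single i j (b g i j)) := fun g => by
    conv_lhs => rw [Matrix.matrix_eq_sum_single (b g)]
    simp only [map_sum]
  let c : Fin 2 → Fin 2 → GQ → ZMod 2 := fun i j g =>
    (ℓ.comp (Matrix.singleAddMonoidHom i j)) (b g i j)
  have hc : ∀ i j, HasDeep 2 (c i j) 5 := fun i j => hasDeep_entry hU hr hb O hI _ i j
  refine ((((hc 0 0).add (by norm_num) (hc 0 1)).add (by norm_num) (hc 1 0)).add (by norm_num)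
    (hc 1 1)).congr fun g _ => ?_
  simp only [Pi.add_apply, c, Function.comp_apply, hdec, Fin.sum_univ_two, AddMonoidHom.comp_apply,
    Matrix.singleAddMonoidHom_apply]
  ring

end Fermat.Agent.RT.Two.Local
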