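import Fermat.Agent.CFT.Flat.Lattice
import Fermat.Agent.FiniteFlat.GalOrderOps

/-!
# The symmetric expansion of the comultiplication at two
-/

set_option autoImplicit false
set_option linter.style.haveILetI false
set_option linter.unusedSectionVars false

noncomputable section

namespace Fermat.Agent.RT.Two.Local

open Fermat.Agent.Arith Fermat.Agent.CFT.Flat Fermat.Agent.FiniteFlat

variable {M : Type} [AddCommGroup M] [Fintype M] [DistribMulAction GQ M] (O : GalOrder 2 M)

/-- The basis functions less their values at the origin. -/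
def centred (i : Module.Free.ChooseBasisIndex (Zl 2) O.H) (x : M) : QBar :=
  ((O.basis i : O.H) : M → QBar) x - ((O.basis i : O.H) : M → QBar) 0

/-- A function of the order, additive up to a symmetric form in the centred basis. -/
theorem exists_symm_expansion {f : M → QBar} (hf : f ∈ O.H) :
    ∃ d : Module.Free.ChooseBasisIndex (Zl 2) O.H → Module.Free.ChooseBasisIndex (Zl 2) O.H → Zl 2,
      (∀ j l, d j l = d l j) ∧ ∀ x y, f (x + y) - f x - f y + f 0 =
        ∑ j, ∑ l, ((d j l : ℚ) : QBar) * (centred O j x * centred O l y) := by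
  classical
  set e := fun i => ((O.basis i : O.H) : M → QBar) with he
  have hrep : ∀ (g : M → QBar) (hg : g ∈ O.H) x,
      g x = ∑ l, ((O.basis.repr ⟨g, hg⟩ l : ℚ) : QBar) * e l x := fun g hg x => by
    have := congrArg (fun g : O.H => (g : M → QBar) x) (O.basis.sum_repr ⟨g, hg⟩)
    simp only [AddSubmonoidClass.coe_finsetSum, Finset.sum_apply, SetLike.val_smul,
      Pi.smul_apply, zl_smul] at this
    exact this.symm
  obtain ⟨n, a, b, ha, hb, hab⟩ := O.comul f hf
  obtain ⟨b', hb'⟩ := O.exists_comul_basis O.basis f n a b (fun i =>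
    ⟨fun j => O.basis.repr ⟨a i, ha i⟩ j, by
      have := congrArg (fun g : O.H => (g : M → QBar)) (O.basis.sum_repr ⟨a i, ha i⟩)
      simp only [AddSubmonoidClass.coe_finsetSum, SetLike.val_smul] at this
      exact this.symm⟩) hb hab
  set d := fun j l => O.basis.repr (b' j) l with hd
  have hexp : ∀ x y, f (x + y) = ∑ j, ∑ l, ((d j l : ℚ) : QBar) * (e j x * e l y) := fun x y => by
    rw [hb']
    refine Finset.sum_congr rfl fun j _ => ?_
    rw [hrep _ (b' j).2 y, Finset.mul_sum]
    exact Finset.sum_congr rfl fun l _ => by simp only [hd, he, Subtype.coe_eta]; ring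
  have hli := O.eq_zero_of_sum_mul_eq_zero Finset.univ _ O.basis.linearIndependent
  have hsymm : ∀ j l, d j l = d l j := by
    intro j l
    have h1 : ∀ y, ∀ j', ∑ l', (((d j' l' : ℚ) : QBar) - ((d l' j' : ℚ) : QBar)) * e l' y = 0 := by
      intro y j'
      refine hli (fun j => ∑ l', (((d j l' : ℚ) : QBar) - ((d l' j : ℚ) : QBar)) * e l' y)
        (fun x => ?_) j' (Finset.mem_univ j')
      show ∑ j, (∑ l', (((d j l' : ℚ) : QBar) - ((d l' j : ℚ) : QBar)) * e l' y) * e j x = 0
      simp only [Finset.sum_mul, sub_mul, Finset.sum_sub_distrib]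
      refine sub_eq_zero.mpr ?_
      calc ∑ j, ∑ l', ((d j l' : ℚ) : QBar) * e l' y * e j x = f (x + y) := by
            rw [hexp]
            exact Finset.sum_congr rfl fun j _ => Finset.sum_congr rfl fun l _ => by ring
        _ = f (y + x) := by rw [add_comm]
        _ = _ := by
          rw [hexp, Finset.sum_comm]
          exact Finset.sum_congr rfl fun j _ => Finset.sum_congr rfl fun l _ => by ring
    have h2 := hli (fun l => ((d j l : ℚ) : QBar) - ((d l j : ℚ) : QBar)) (fun y => h1 y j) l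
      (Finset.mem_univ l)
    exact Subtype.ext (Rat.cast_injective (sub_eq_zero.mp h2))
  refine ⟨d, hsymm, fun x y => ?_⟩
  have hx := hexp x 0
  have hy := hexp 0 y
  have h0 := hexp 0 0
  rw [add_zero] at hx h0
  rw [zero_add] at hy
  rw [hexp x y, hx, hy, h0]
  simp only [centred, he, ← Finset.sum_sub_distrib, ← Finset.sum_add_distrib]
  exact Finset.sum_congr rfl fun j _ => Finset.sum_congr rfl fun l _ => by ring

/-- An element of `ℤ_(2)` is zero or one modulo two. -/
theorem exists_parity (c : Zl 2) :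
    ∃ δ : QBar, (δ = 0 ∨ δ = 1) ∧ nrm 2 (((c : ℚ) : QBar) - δ) ≤ (2 : ℝ)⁻¹ := by
  have hden : ¬ 2 ∣ (c : ℚ).den := fun h => by
    have := Nat.eq_one_of_dvd_coprimes (c.2 : (c : ℚ).den.Coprime 2) h dvd_rfl
    norm_num at this
  have hd : nrm 2 (((c : ℚ).den : QBar)) = 1 := nrm_natCast_eq_one 2 hden
  have hd0 : (((c : ℚ).den : QBar)) ≠ 0 := Nat.cast_ne_zero.mpr (c : ℚ).den_ne_zero
  have heven : ∀ z : ℤ, Even z → nrm 2 ((z : QBar) / ((c : ℚ).den : QBar)) ≤ (2 : ℝ)⁻¹ := by
    rintro z ⟨t, rfl⟩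
    rw [nrm_div, hd, div_one, Int.cast_add, ← two_mul, nrm_mul]
    refine (mul_le_of_le_one_right (nrm_nonneg 2 _) (nrm_intCast_le_one 2 t)).trans ?_
    simpa using (nrm_natCast_self 2).le
  have hc : ((c : ℚ) : QBar) = ((c : ℚ).num : QBar) / ((c : ℚ).den : QBar) := Rat.cast_def _
  rcases Int.even_or_odd (c : ℚ).num with h | h
  · exact ⟨0, Or.inl rfl, by rw [hc, sub_zero]; exact heven _ h⟩
  · refine ⟨1, Or.inr rfl, ?_⟩
    have hd' : Odd ((c : ℚ).den : ℤ) := by
      rw [Int.odd_coe_nat, ← Nat.not_even_iff_odd, even_iff_two_dvd]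
      exact hden
    rw [hc, div_sub_one hd0,
      show ((c : ℚ).num : QBar) - ((c : ℚ).den : QBar) =
        (((c : ℚ).num - ((c : ℚ).den : ℤ) : ℤ) : QBar) by push_cast; ring]
    exact heven _ (h.sub_odd hd')

/-- A symmetric quadratic form with small diagonal is small. -/
theorem nrm_symm_form_le {ι : Type*} (s : Finset ι) {w : ι → ι → QBar} (hsymm : ∀ j l, w j l = w l j)
    (hdiag : ∀ j, nrm 2 (w j j) ≤ (2 : ℝ)⁻¹) (hall : ∀ j l, nrm 2 (w j l) ≤ 1) {z : ι → QBar}
    {r : ℝ} (hr : 0 ≤ r) (hz : ∀ j, nrm 2 (z j) ≤ r) :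
    nrm 2 (∑ j ∈ s, ∑ l ∈ s, w j l * (z j * z l)) ≤ (2 : ℝ)⁻¹ * (r * r) := by
  classical
  have hrr : 0 ≤ (2 : ℝ)⁻¹ * (r * r) := by positivity
  induction s using Finset.induction with
  | empty => simpa using hrr
  | insert a s ha ih =>
    have hrow : ∀ j, ∑ l ∈ insert a s, w j l * (z j * z l) =
        w j a * (z j * z a) + ∑ l ∈ s, w j l * (z j * z l) := fun j => Finset.sum_insert ha
    have hswap : ∑ j ∈ s, w j a * (z j * z a) = ∑ l ∈ s, w a l * (z a * z l) :=
      Finset.sum_congr rfl fun l _ => by rw [hsymm]; ring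
    rw [Finset.sum_insert ha, hrow, Finset.sum_congr rfl fun j _ => hrow j, Finset.sum_add_distrib,
      hswap, show ∀ a b c : QBar, a + b + (b + c) = a + 2 * b + c from fun a b c => by ring]
    refine nrm_add_le_of_le 2 (nrm_add_le_of_le 2 ?_ ?_) ih
    · rw [nrm_mul, nrm_mul]
      exact mul_le_mul (hdiag a) (mul_le_mul (hz a) (hz a) (nrm_nonneg 2 _) hr)
        (mul_nonneg (nrm_nonneg 2 _) (nrm_nonneg 2 _)) (by norm_num)
    · rw [nrm_mul]
      refine mul_le_mul ?_ (nrm_sum_le 2 _ _ (mul_nonneg hr hr) fun l _ => ?_) (nrm_nonneg 2 _)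
        (by norm_num)
      · simpa using (nrm_natCast_self 2).le
      · rw [nrm_mul, nrm_mul]
        exact (mul_le_of_le_one_left (mul_nonneg (nrm_nonneg 2 _) (nrm_nonneg 2 _))
          (hall a l)).trans (mul_le_mul (hz a) (hz l) (nrm_nonneg 2 _) hr)

end Fermat.Agent.RT.Two.Local
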