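import Fermat.Agent.CFT.Flat.Slots

/-!
# Moves of uniformisers under inertia at two
-/

set_option autoImplicit false
set_option linter.style.haveILetI false
set_option linter.unusedSectionVars false

noncomputable section

namespace Fermat.Agent.RT.Two.Local

open Fermat.Agent.Arith Fermat.Agent.CFT.Flat Polynomial

theorem e₀_two : e₀ 2 = 3 := rfl

/-- An element fixed by `K` moves no more than the uniformiser, scaled by its absolute value. -/
theorem move_le {p : ℕ} [Fact p.Prime] {K : Subgroup GQ} {ϖ y : QBar} (u : IsUnif (p := p) K ϖ)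
    (hy : ∀ g ∈ K, g y = y) {a : ℕ} (hle : nrm p y ≤ nrm p ϖ ^ (a + 1)) {g : GQ}
    (hg : g ∈ inG p) : nrm p (g y - y) ≤ nrm p ϖ ^ a * nrm p (g ϖ - ϖ) := by
  rcases eq_or_ne (g ϖ) ϖ with h | h
  · have hgK : g ∈ K := by
      rw [← u.fixer_eq]
      exact (mem_fixer p).mpr ⟨hg, h⟩
    rw [hy g hgK, sub_self, nrm_zero]
    exact mul_nonneg (pow_nonneg u.pos.le _) (nrm_nonneg p _)
  set δ := nrm p (g ϖ - ϖ)
  have hδ : 0 < δ := nrm_pos p (sub_ne_zero.mpr h)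
  have hq : ϖ ^ (a + 1) ≠ 0 := pow_ne_zero _ u.ne_zero
  set z := y / ϖ ^ (a + 1) with hz
  have hzfix : ∀ k ∈ K, k z = z := fun k hk => by rw [hz, map_div₀, map_pow, hy k hk, u.fixed k hk]
  have hz1 : nrm p z ≤ 1 := by
    rw [hz, nrm_div, CFT.Flat.nrm_pow, div_le_one (pow_pos u.pos _)]
    exact hle
  obtain ⟨P, hP⟩ := u.exists_approx hzfix hz1 hδ
  have hgϖ : nrm p (g ϖ) = nrm p ϖ := nrm_map_of_mem_inG p hg ϖ
  have hzmove : nrm p (g z - z) ≤ δ := by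
    rw [show g z - z = g (z - aeval ϖ P) - (z - aeval ϖ P) + (aeval (g ϖ) P - aeval ϖ P) by
      rw [map_sub, map_aeval_intI hg]; ring]
    exact nrm_add_le_of_le p
      (nrm_sub_le_of_le p ((nrm_map_of_mem_inG p hg _).trans_le hP) hP)
      (nrm_aeval_sub_le P (hgϖ.trans_le u.lt_one.le) u.lt_one.le)
  have hpow : nrm p (g ϖ ^ (a + 1) - ϖ ^ (a + 1)) ≤ nrm p ϖ ^ a * δ := by
    rw [← geom_sum₂_mul, nrm_mul]
    refine mul_le_mul_of_nonneg_right (nrm_sum_le p _ _ (pow_nonneg u.pos.le _) fun i hi => ?_)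
      hδ.le
    rw [nrm_mul, CFT.Flat.nrm_pow, CFT.Flat.nrm_pow, hgϖ, ← pow_add]
    rw [show i + (a + 1 - 1 - i) = a by have := Finset.mem_range.mp hi; omega]
  rw [show g y - y = (g ϖ ^ (a + 1) - ϖ ^ (a + 1)) * g z + ϖ ^ (a + 1) * (g z - z) by
    rw [show y = ϖ ^ (a + 1) * z by rw [hz, mul_div_cancel₀ _ hq], map_mul, map_pow]; ring]
  refine nrm_add_le_of_le p ?_ ?_
  · rw [nrm_mul, nrm_map_of_mem_inG p hg]
    exact (mul_le_of_le_one_right (nrm_nonneg p _) hz1).trans hpow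
  · rw [nrm_mul, CFT.Flat.nrm_pow]
    exact mul_le_mul (pow_le_pow_of_le_one u.pos.le u.lt_one.le (Nat.le_succ a)) hzmove
      (nrm_nonneg p _) (pow_nonneg u.pos.le _)

/-- The index in inertia of a subgroup of tame inertia at two. -/
theorem relIndex_inG_eq {K : Subgroup GQ} (hK : K ≤ tame 2) :
    K.relIndex (inG 2) = K.relIndex (tame 2) * 3 := by
  rw [← Subgroup.relIndex_mul_relIndex K (tame 2) (inG 2) hK (isUnif_rad 2).level.le,
    ← (isUnif_rad 2).card_orb_eq, card_orb_rad, e₀_two]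

/-- The cube root of two against a uniformiser. -/
theorem nrm_pow_relIndex_tame {K : Subgroup GQ} {ϖ : QBar} (u : IsUnif (p := 2) K ϖ)
    (hK : K ≤ tame 2) : nrm 2 ϖ ^ K.relIndex (tame 2) = nrm 2 (rad 2) := by
  refine (pow_left_inj₀ (pow_nonneg u.pos.le _) (nrm_nonneg 2 _) (three_ne_zero)).mp ?_
  rw [← pow_mul, ← relIndex_inG_eq hK, u.pow_eq, ← nrm_rad_pow 2, e₀_two]

theorem nrm_two : nrm 2 (2 : QBar) = (2 : ℝ)⁻¹ := by
  simpa using nrm_natCast_self 2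

theorem nrm_two_eq_rad : nrm 2 (2 : QBar) = nrm 2 (rad 2) ^ 3 := by
  rw [nrm_two, ← e₀_two, nrm_rad_pow]
  norm_num

/-- An inertia element whose square fixes the field moves a uniformiser beyond the first level. -/
theorem move_le_sq {K : Subgroup GQ} {ϖ : QBar} (u : IsUnif (p := 2) K ϖ) {g : GQ}
    (hg : g ∈ inG 2) (hnorm : ∀ k ∈ K, g⁻¹ * k * g ∈ K) (hsq : g * g ∈ K) :
    nrm 2 (g ϖ - ϖ) ≤ nrm 2 ϖ ^ 2 := by
  have hgϖ : nrm 2 (g ϖ) = nrm 2 ϖ := nrm_map_of_mem_inG 2 hg ϖ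
  have hfix : ∀ k ∈ K, k (g ϖ) = g ϖ := fun k hk => by
    have := congrArg g (u.fixed _ (hnorm k hk))
    rwa [← AlgEquiv.mul_apply, ← mul_assoc, ← mul_assoc, mul_inv_cancel, one_mul,
      AlgEquiv.mul_apply] at this
  set ε := g ϖ / ϖ with hε
  have hε1 : nrm 2 ε = 1 := by rw [hε, nrm_div, hgϖ, div_self u.pos.ne']
  have hεε : g ε * ε = 1 := by
    have h2 := u.fixed _ hsq
    rw [AlgEquiv.mul_apply] at h2
    rw [hε, map_div₀, h2, div_mul_div_comm, mul_comm (g ϖ) ϖ, div_self]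
    exact mul_ne_zero u.ne_zero ((_root_.map_ne_zero g).mpr u.ne_zero)
  have hsmall : nrm 2 ((ε - 1) ^ 2) < 1 := by
    rw [show (ε - 1) ^ 2 = (g ε * ε - 1) - (g ε - ε) * ε - 2 * (ε - 1) by ring, hεε, sub_self,
      zero_sub]
    refine nrm_sub_lt_of_lt 2 ?_ ?_
    · rw [nrm_neg, nrm_mul, hε1, mul_one]
      exact nrm_sub_lt_one_of_mem_inG 2 hg hε1.le
    · rw [nrm_mul, nrm_two]
      exact (mul_le_of_le_one_right (by norm_num) (nrm_sub_le_of_le 2 hε1.le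
        (nrm_one 2).le)).trans_lt (by norm_num)
  have h1 : nrm 2 (ε - 1) < 1 := by
    rw [CFT.Flat.nrm_pow] at hsmall
    exact (pow_lt_one_iff_of_nonneg (nrm_nonneg 2 _) two_ne_zero).mp hsmall
  have hlt : nrm 2 (g ϖ - ϖ) < nrm 2 ϖ ^ 1 := by
    rw [show g ϖ - ϖ = (ε - 1) * ϖ by rw [hε, sub_mul, div_mul_cancel₀ _ u.ne_zero, one_mul],
      nrm_mul, pow_one]
    exact mul_lt_of_lt_one_left u.pos h1
  exact u.nrm_le_of_lt (fun k hk => by rw [map_sub, hfix k hk, u.fixed k hk]) hlt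

end Fermat.Agent.RT.Two.Local
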