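import Fermat.Agent.RT.Two.Local.Moves
import Fermat.Agent.RT.Two.Local.Expansion
import Mathlib.LinearAlgebra.Dual.Lemmas

/-!
# Points of an order at two with inertia of order three modulo a tame-fixed subgroup
-/

set_option autoImplicit false
set_option linter.style.haveILetI false
set_option linter.unusedSectionVars false

noncomputable section

namespace Fermat.Agent.RT.Two.Local

open Fermat.Agent.Arith Fermat.Agent.CFT.Flat Fermat.Agent.FiniteFlat AddMonoidAlgebra
open scoped AddMonoidAlgebra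

variable {M : Type} [AddCommGroup M] [Fintype M] [DistribMulAction GQ M] (O : GalOrder 2 M)

theorem zmod_two_cases : ∀ a : ZMod 2, a = 0 ∨ a = 1 := by decide

theorem apply_zero_fixed {f : M → QBar} (hf : f ∈ O.H) (g : GQ) : g (f 0) = f 0 := by
  rw [← O.equivariant f hf, smul_zero]

/-- The points are congruent to the origin. -/
theorem mem_conn_of_quad (hkill : ∀ x : M, x + x = 0) {τ : GQ} (hτ : τ ∈ inG 2)
    (hτM : ∀ x : M, τ • τ • x + τ • x + x = 0) (m : M) : m ∈ conn O := by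
  have h := smul_sub_mem_conn (O := O) hτ (τ • m)
  rwa [sub_eq_add_neg, neg_eq_of_add_eq_zero_left (hkill _),
    eq_neg_of_add_eq_zero_left (hτM m), neg_eq_of_add_eq_zero_left (hkill m)] at h

/-- The cube root of two cannot divide twice the values at a tame-fixed point. -/
theorem exists_value_gt (hkill : ∀ x : M, x + x = 0) {τ : GQ} (hτ : τ ∈ inG 2)
    (hτprim : IsPrimitiveRoot (theta 2 τ) (e₀ 2))
    (hgen : ∀ g ∈ inG 2, ∃ i : ℕ, (τ ^ i)⁻¹ * g ∈ tame 2)
    (hτM : ∀ x : M, τ • τ • x + τ • x + x = 0) {m : M} (hm : ∀ g ∈ tame 2, g • m = m)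
    (hm0 : m ≠ 0) : ∃ f ∈ O.H, nrm 2 (rad 2) ^ 2 < nrm 2 (f m - f 0) := by
  classical
  by_contra hall
  push Not at hall
  have u := isUnif_rad 2
  set q := nrm 2 (rad 2) with hq
  have hτD := inG_le_decG 2 hτ
  set θ := theta 2 τ with hθ
  have hθ3 : θ ^ 3 = 1 := by rw [← e₀_two, hθ, theta_pow]
  have hθne : θ ≠ 1 := hτprim.ne_one (by rw [e₀_two]; norm_num)
  have hθ0 : θ ≠ 0 := fun h => by simp [h] at hθ3
  have hθsum : θ ^ 2 + θ + 1 = 0 := by
    refine (mul_eq_zero.mp (?_ : (θ - 1) * (θ ^ 2 + θ + 1) = 0)).resolve_left (sub_ne_zero.mpr hθne)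
    linear_combination hθ3
  have hτrad : τ (rad 2) = θ * rad 2 := map_rad 2 τ
  have hτθ : τ θ = θ := map_theta 2 hτ τ
  have hτ3 : τ * τ * τ ∈ tame 2 := by
    refine (mem_tame 2).mpr ⟨(inG 2).mul_mem ((inG 2).mul_mem hτ hτ) hτ, ?_⟩
    simp only [AlgEquiv.mul_apply, hτrad, map_mul, hτθ]
    linear_combination (rad 2) * hθ3
  set c : QBar := (2 * rad 2)⁻¹ with hc
  have hc1 : τ c = θ⁻¹ * c := by
    simp only [hc, map_inv₀, map_mul, map_ofNat, hτrad, mul_inv]
    ring
  have hcfix : ∀ g ∈ tame 2, g c = c := fun g hg => by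
    simp only [hc, map_inv₀, map_mul, map_ofNat, ((mem_tame 2).mp hg).2]
  have hcn : nrm 2 c = (q ^ 4)⁻¹ := by
    rw [hc, nrm_inv, nrm_mul, nrm_two_eq_rad, ← hq, ← pow_succ]
  let μ : QBar[M] := (AddMonoidAlgebra.single m c - AddMonoidAlgebra.single 0 c) +
    (AddMonoidAlgebra.single (τ • m) (τ c) - AddMonoidAlgebra.single 0 (τ c)) +
    (AddMonoidAlgebra.single (τ • τ • m) (τ (τ c)) - AddMonoidAlgebra.single 0 (τ (τ c)))
  have hμ : Le O μ 1 := by
    intro f hf
    set y := c * (f m - f 0) with hy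
    have hev : ev f μ = y + τ y + τ (τ y) := by
      simp only [μ, map_add, map_sub, ev_single, hy, map_mul, ← O.equivariant f hf, smul_zero]
      ring
    rw [hev]
    have hyfix : ∀ g ∈ tame 2, g y = y := fun g hg => by
      rw [hy, map_mul, map_sub, hcfix g hg, ← O.equivariant f hf, hm g hg, apply_zero_fixed O hf]
    have hyτ : ∀ g ∈ tame 2, g (τ y) = τ y := fun g hg => by
      have := congrArg τ (hyfix _ (conj_mem_tame hτD hg))
      rwa [← AlgEquiv.mul_apply, ← mul_assoc, ← mul_assoc, mul_inv_cancel, one_mul,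
        AlgEquiv.mul_apply] at this
    have hyττ : ∀ g ∈ tame 2, g (τ (τ y)) = τ (τ y) := fun g hg => by
      have := congrArg τ (hyτ _ (conj_mem_tame hτD hg))
      rwa [← AlgEquiv.mul_apply, ← mul_assoc, ← mul_assoc, mul_inv_cancel, one_mul,
        AlgEquiv.mul_apply] at this
    set T := y + τ y + τ (τ y) with hT
    have hTτ : τ T = T := by
      have h3 : τ (τ (τ y)) = y := hyfix _ hτ3
      rw [hT, map_add, map_add, h3]
      ring
    have hTfix : ∀ g ∈ inG 2, g T = T := fun g hg => by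
      obtain ⟨i, hi⟩ := hgen g hg
      have hpow : ∀ i : ℕ, (τ ^ i) T = T := fun i => by
        induction i with
        | zero => rw [pow_zero, AlgEquiv.one_apply]
        | succ i ih => rw [pow_succ, AlgEquiv.mul_apply, hTτ, ih]
      rw [show g = τ ^ i * ((τ ^ i)⁻¹ * g) by group, AlgEquiv.mul_apply]
      have : ((τ ^ i)⁻¹ * g) T = T := by
        rw [hT, map_add, map_add, hyfix _ hi, hyτ _ hi, hyττ _ hi]
      rw [this, hpow]
    rcases eq_or_ne T 0 with h0 | h0
    · rw [h0, nrm_zero]; exact zero_le_one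
    have hyle : nrm 2 y ≤ (q ^ 2)⁻¹ := by
      rw [hy, nrm_mul, hcn]
      refine (mul_le_mul_of_nonneg_left (hall f hf) (by positivity)).trans (le_of_eq ?_)
      field_simp [u.pos.ne']
    have hTle : nrm 2 T ≤ (q ^ 2)⁻¹ := by
      refine nrm_add_le_of_le 2 (nrm_add_le_of_le 2 hyle ?_) ?_
      · exact (nrm_map_of_mem_inG 2 hτ _).trans_le hyle
      · rw [nrm_map_of_mem_inG 2 hτ, nrm_map_of_mem_inG 2 hτ]; exact hyle
    obtain ⟨k, hk⟩ := isLevel_inG.nrm_pow_relIndex h0 hTfix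
    rw [Subgroup.relIndex_self, pow_one] at hk
    have hq3 : (q ^ 2)⁻¹ < 2 := by
      have h := hq ▸ nrm_rad_pow 2
      rw [e₀_two] at h
      rw [inv_lt_comm₀ (pow_pos u.pos 2) two_pos]
      calc (2 : ℝ)⁻¹ = q ^ 3 := by rw [h]; norm_num
        _ < q ^ 2 := pow_lt_pow_right_of_lt_one₀ u.pos u.lt_one (by norm_num)
    rw [hk]
    by_contra hgt
    rw [not_le] at hgt
    have hneg : k < 0 := by
      by_contra hk0
      refine absurd hgt (not_lt.mpr ?_)
      rw [← zpow_zero ((2 : ℕ) : ℝ)⁻¹]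
      exact (zpow_le_zpow_iff_right_of_lt_one₀ (inv_cast_pos 2) (inv_cast_lt_one 2)).mpr
        (not_lt.mp hk0)
    have h2 : (2 : ℝ) ≤ ((2 : ℕ) : ℝ)⁻¹ ^ k := by
      obtain ⟨j, rfl⟩ : ∃ j : ℕ, k = -((j + 1 : ℕ) : ℤ) := ⟨(-k - 1).toNat, by omega⟩
      rw [zpow_neg, zpow_natCast, inv_pow, inv_inv]
      calc (2 : ℝ) = 2 ^ 1 := (pow_one 2).symm
        _ ≤ _ := by push_cast; exact pow_le_pow_right₀ one_le_two (by omega)
    rw [hk] at hTle
    linarith
  -- a character separating the orbit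
  haveI : Fact (2 : ℕ).Prime := inferInstance
  letI : Module (ZMod 2) M := AddCommGroup.zmodModule (n := 2) fun x => by rw [two_nsmul, hkill]
  have hτm : τ • m ≠ m := fun h => hm0 (by
    have := hτM m
    rwa [h, h, hkill, zero_add] at this)
  have hnot : τ • m ∉ Submodule.span (ZMod 2) {m} := fun hmem => by
    obtain ⟨a, ha⟩ := Submodule.mem_span_singleton.mp hmem
    rcases zmod_two_cases a with rfl | rfl
    · rw [zero_smul] at ha
      exact hm0 ((smul_eq_zero_iff_eq τ).mp ha.symm)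
    · rw [one_smul] at ha
      exact hτm ha.symm
  obtain ⟨φ, hφτ, hφm⟩ := Submodule.exists_dual_map_eq_bot_of_notMem hnot inferInstance
  have hφm0 : φ m = 0 := by
    have := Submodule.mem_map_of_mem (f := φ) (Submodule.mem_span_singleton_self m)
    rwa [hφm, Submodule.mem_bot] at this
  have hφτ1 : φ (τ • m) = 1 := by
    exact (zmod_two_cases _).resolve_left hφτ
  have hφττ : φ (τ • τ • m) = 1 := by
    have := congrArg φ (hτM m)
    rw [map_add, map_add, map_zero, hφm0, hφτ1, add_zero] at this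
    rcases zmod_two_cases (φ (τ • τ • m)) with h | h
    · rw [h, zero_add] at this; exact absurd this one_ne_zero
    · exact h
  let χ : Multiplicative M →* QBar :=
    { toFun := fun x => if φ (Multiplicative.toAdd x) = 0 then 1 else -1
      map_one' := by simp
      map_mul' := fun x y => by
        rw [toAdd_mul, map_add]
        generalize φ (Multiplicative.toAdd x) = a
        generalize φ (Multiplicative.toAdd y) = b
        rcases zmod_two_cases a with rfl | rfl <;> rcases zmod_two_cases b with rfl | rfl <;>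
          simp +decide [show (1 : ZMod 2) + 1 = 0 from rfl] }
  set h : M → QBar := fun x => χ (Multiplicative.ofAdd x) with hh
  have hevmul : ∀ ν ν' : QBar[M], ev h (ν * ν') = ev h ν * ev h ν' := fun ν ν' => by
    have hadd : ∀ x y, h (x + y) = ∑ _i : Fin 1, h x * h y := fun x y => by
      simp [hh, ofAdd_add, map_mul]
    rw [ev_mul hadd]
    simp
  have hpow : ∀ n : ℕ, ev h (μ ^ n) = ev h μ ^ n := fun n => by
    induction n with
    | zero => rw [pow_zero, pow_zero, ev_one]; simp [hh]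
    | succ n ih => rw [pow_succ, pow_succ, hevmul, ih]
  have hval : ev h μ = (rad 2)⁻¹ := by
    simp only [μ, map_add, map_sub, ev_single, hh, χ, MonoidHom.coe_mk, OneHom.coe_mk, toAdd_ofAdd,
      map_zero, hφm0, hφτ1, hφττ, one_ne_zero, ite_true, if_false, mul_one, mul_neg, sub_self,
      zero_add]
    rw [hc1, map_mul, map_inv₀, hτθ, hc1, hc]
    field_simp [rad_ne_zero 2]
    linear_combination (-2 : QBar) * hθsum
  obtain ⟨B, hB⟩ : ∃ B : ℝ, ∀ n : ℕ, nrm 2 (ev h (μ ^ n)) ≤ B := by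
    suffices H : ∀ x ∈ Submodule.span QBar (O.H : Set (M → QBar)),
        ∃ B : ℝ, ∀ n : ℕ, nrm 2 (ev x (μ ^ n)) ≤ B from
      H h (by rw [O.span_eq_top]; exact Submodule.mem_top)
    intro x hx
    induction hx using Submodule.span_induction with
    | mem x hx => exact ⟨1, fun n => hμ.pow_one' n x hx⟩
    | zero => exact ⟨0, fun n => by rw [ev_zero_fun, nrm_zero]⟩
    | add x y _ _ hx hy =>
      obtain ⟨B₁, hB₁⟩ := hx
      obtain ⟨B₂, hB₂⟩ := hy
      exact ⟨max B₁ B₂, fun n => by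
        rw [ev_add_fun]
        exact nrm_add_le_of_le 2 ((hB₁ n).trans (le_max_left _ _))
          ((hB₂ n).trans (le_max_right _ _))⟩
    | smul a x _ hx =>
      obtain ⟨B₁, hB₁⟩ := hx
      exact ⟨nrm 2 a * B₁, fun n => by
        rw [ev_smul_fun, nrm_mul]
        exact mul_le_mul_of_nonneg_left (hB₁ n) (nrm_nonneg 2 _)⟩
  obtain ⟨n, hn⟩ := pow_unbounded_of_one_lt B
    (one_lt_inv_iff₀.mpr ⟨u.pos, u.lt_one⟩ : (1 : ℝ) < (nrm 2 (rad 2))⁻¹)
  have := hB n
  rw [hpow, hval, CFT.Flat.nrm_pow, nrm_inv] at this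
  exact absurd this (not_le.mpr hn)

/-- Twice a point vanishes, so the exponent of its absolute value has the parity of that of two. -/
theorem exists_value_exponent (hkill : ∀ x : M, x + x = 0) {m : M} (hm0 : m ≠ 0)
    (hconn : m ∈ conn O) {K : Subgroup GQ} {ϖ : QBar} (u : IsUnif (p := 2) K ϖ)
    (hfix : ∀ g ∈ K, g • m = m) :
    ∃ a : ℕ, 1 ≤ a ∧ Even (K.relIndex (inG 2) + a) ∧
      ∀ f ∈ O.H, nrm 2 (f m - f 0) ≤ nrm 2 ϖ ^ a := by
  classical
  set e := fun i => ((O.basis i : O.H) : M → QBar) with he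
  have hbound : ∀ f (hf : f ∈ O.H) (r : ℝ), 0 ≤ r → (∀ i, nrm 2 (centred O i m) ≤ r) →
      nrm 2 (f m - f 0) ≤ r := by
    intro f hf r hr hi
    have hsum : ∀ x, f x = ∑ i, ((O.basis.repr ⟨f, hf⟩ i : ℚ) : QBar) * e i x := fun x => by
      have := congrArg (fun g : O.H => (g : M → QBar) x) (O.basis.sum_repr ⟨f, hf⟩)
      simp only [AddSubmonoidClass.coe_finsetSum, Finset.sum_apply, SetLike.val_smul,
        Pi.smul_apply, zl_smul] at this
      exact this.symm
    rw [hsum m, hsum 0, ← Finset.sum_sub_distrib]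
    refine nrm_sum_le 2 _ _ hr fun i _ => ?_
    rw [← mul_sub, nrm_mul]
    exact (mul_le_of_le_one_left (nrm_nonneg 2 _) (nrm_zl_le_one 2 _)).trans (hi i)
  haveI : Nonempty (Module.Free.ChooseBasisIndex (Zl 2) O.H) := by
    by_contra hne
    rw [not_nonempty_iff] at hne
    refine hm0 (O.separates m 0 fun f hf => sub_eq_zero.mp ((nrm_eq_zero 2).mp
      (le_antisymm (hbound f hf 0 le_rfl fun i => (hne.false i).elim) (nrm_nonneg 2 _))))
  obtain ⟨j, hj⟩ := Finite.exists_max fun i => nrm 2 (centred O i m)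
  set y := centred O j m with hy
  have hy0 : y ≠ 0 := fun h => hm0 (O.separates m 0 fun f hf => sub_eq_zero.mp ((nrm_eq_zero 2).mp
    (le_antisymm (hbound f hf 0 le_rfl fun i => (hj i).trans (by rw [h, nrm_zero]))
      (nrm_nonneg 2 _))))
  have hcfix : ∀ i, ∀ g ∈ K, g (centred O i m) = centred O i m := fun i g hg => by
    rw [centred, map_sub, ← O.equivariant _ (O.basis i).2, hfix g hg,
      apply_zero_fixed O (O.basis i).2]
  obtain ⟨a', ha'⟩ := u.exists_zpow hy0 (hcfix j)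
  have hy1 : nrm 2 y < 1 := hconn _ (O.basis j).2
  obtain ⟨a, rfl⟩ : ∃ a : ℕ, a' = a := by
    refine Int.eq_ofNat_of_zero_le ?_
    by_contra h
    rw [ha'] at hy1
    exact absurd hy1 (not_lt.mpr (one_le_zpow_of_nonpos₀ u.pos u.lt_one.le (by omega)))
  rw [zpow_natCast] at ha'
  have ha1 : 1 ≤ a := by
    by_contra h
    rw [show a = 0 by omega, pow_zero] at ha'
    rw [ha'] at hy1
    exact lt_irrefl _ hy1
  refine ⟨a, ha1, ?_, fun f hf => hbound f hf _ (pow_nonneg u.pos.le _) fun i => ha' ▸ hj i⟩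
  -- the equation for twice the point
  obtain ⟨d, hsymm, hd⟩ := exists_symm_expansion O (O.basis j).2
  have h2 := hd m m
  rw [hkill, show ((O.basis j : O.H) : M → QBar) 0 - ((O.basis j : O.H) : M → QBar) m -
    ((O.basis j : O.H) : M → QBar) m + ((O.basis j : O.H) : M → QBar) 0 = -(2 * y) by
      rw [hy, centred]; ring] at h2
  choose δ hδ hδd using fun i => exists_parity (d i i)
  set z := fun i => centred O i m with hz
  set Z := ∑ i, δ i * z i with hZ
  have hδ1 : ∀ i, nrm 2 (δ i) ≤ 1 := fun i => by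
    rcases hδ i with h | h <;> rw [h] <;> simp
  have hδsq : ∀ i, δ i * δ i = δ i := fun i => by rcases hδ i with h | h <;> rw [h] <;> simp
  have hR : nrm 2 (-(2 * y) - Z ^ 2) ≤ (2 : ℝ)⁻¹ * (nrm 2 y * nrm 2 y) := by
    rw [h2, sq, hZ, Finset.sum_mul_sum,
      show ∑ i, ∑ l, ((d i l : ℚ) : QBar) * (centred O i m * centred O l m) -
        ∑ i, ∑ l, δ i * z i * (δ l * z l) =
        ∑ i, ∑ l, (((d i l : ℚ) : QBar) - δ i * δ l) * (z i * z l) by
      simp only [← Finset.sum_sub_distrib, hz]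
      exact Finset.sum_congr rfl fun i _ => Finset.sum_congr rfl fun l _ => by ring]
    refine nrm_symm_form_le _ (fun i l => by rw [hsymm, mul_comm (δ i)]) (fun i => ?_)
      (fun i l => nrm_sub_le_of_le 2 (nrm_zl_le_one 2 _) ?_) (nrm_nonneg 2 y) hj
    · rw [hδsq]; exact hδd i
    · rw [nrm_mul]; exact mul_le_one₀ (hδ1 i) (nrm_nonneg 2 _) (hδ1 l)
  have hlt : (2 : ℝ)⁻¹ * (nrm 2 y * nrm 2 y) < nrm 2 (-(2 * y)) := by
    rw [nrm_neg, nrm_mul, nrm_two]
    exact mul_lt_mul_of_pos_left (mul_lt_of_lt_one_left (nrm_pos 2 hy0) hy1) (by norm_num)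
  have hZn : nrm 2 (Z ^ 2) = nrm 2 ϖ ^ (K.relIndex (inG 2) + a) := by
    rw [show Z ^ 2 = -(2 * y) + -(-(2 * y) - Z ^ 2) by ring,
      nrm_add_eq_of_lt 2 (by rw [nrm_neg]; exact hR.trans_lt hlt), nrm_neg, nrm_mul, pow_add,
      u.pow_eq, ha', nrm_two]
    norm_num
  have hZ0 : Z ≠ 0 := fun h => by
    rw [h, zero_pow two_ne_zero, nrm_zero] at hZn
    exact (pow_pos u.pos _).ne hZn
  obtain ⟨b, hb⟩ := u.exists_zpow hZ0 fun g hg => by
    rw [hZ, map_sum]
    refine Finset.sum_congr rfl fun i _ => ?_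
    rw [map_mul, show g (z i) = z i from hcfix i g hg]
    rcases hδ i with h | h <;> rw [h] <;> simp
  rw [CFT.Flat.nrm_pow, hb, ← zpow_natCast, ← zpow_natCast, ← zpow_mul] at hZn
  have := zpow_right_injective₀ u.pos u.lt_one.ne hZn
  exact (Int.even_coe_nat _).mp ⟨b, by omega⟩

/-- A translation by a nonzero tame-fixed point moves some value by exactly the cube root of two. -/
theorem exists_move (hkill : ∀ x : M, x + x = 0) {τ : GQ} (hτ : τ ∈ inG 2)
    (hτprim : IsPrimitiveRoot (theta 2 τ) (e₀ 2))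
    (hgen : ∀ g ∈ inG 2, ∃ i : ℕ, (τ ^ i)⁻¹ * g ∈ tame 2)
    (hτM : ∀ x : M, τ • τ • x + τ • x + x = 0) {m x : M} (hx : ∀ g ∈ tame 2, g • x = x)
    (hx0 : x ≠ 0) :
    ∃ f ∈ O.H, nrm 2 (rad 2) ≤ nrm 2 (f (m + x) - f m) := by
  classical
  have u := isUnif_rad 2
  set q := nrm 2 (rad 2)
  have hval : ∀ f ∈ O.H, nrm 2 (f x - f 0) ≤ q := fun f hf => by
    have h := u.nrm_le_of_lt (k := 0) (x := f x - f 0) (fun g hg => by
      rw [map_sub, ← O.equivariant f hf, hx g hg, apply_zero_fixed O hf])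
      (by rw [pow_zero]; exact mem_conn_of_quad O hkill hτ hτM x f hf)
    rwa [zero_add, pow_one] at h
  obtain ⟨f, hf, hbig⟩ := exists_value_gt O hkill hτ hτprim hgen hτM hx hx0
  have heq : q ≤ nrm 2 (f x - f 0) := by
    by_contra h
    rw [not_le, ← pow_one q] at h
    exact absurd (u.nrm_le_of_lt (fun g hg => by
      rw [map_sub, ← O.equivariant f hf, hx g hg, apply_zero_fixed O hf]) h) (not_le.mpr hbig)
  obtain ⟨d, -, hd⟩ := exists_symm_expansion O hf
  refine ⟨f, hf, ?_⟩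
  rw [show f (m + x) - f m = (f x - f 0) +
    ∑ j, ∑ l, ((d j l : ℚ) : QBar) * (centred O j m * centred O l x) by rw [← hd m x]; ring]
  have hlt : nrm 2 (∑ j, ∑ l, ((d j l : ℚ) : QBar) * (centred O j m * centred O l x)) < q := by
    refine Finset.sum_induction _ (fun z => nrm 2 z < q) (fun _ _ => nrm_add_lt_of_lt 2)
      (by rw [nrm_zero]; exact u.pos) fun j _ => ?_
    refine Finset.sum_induction _ (fun z => nrm 2 z < q) (fun _ _ => nrm_add_lt_of_lt 2)
      (by rw [nrm_zero]; exact u.pos) fun l _ => ?_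
    rw [nrm_mul, nrm_mul]
    calc _ ≤ nrm 2 (centred O j m) * q :=
          (mul_le_of_le_one_left (mul_nonneg (nrm_nonneg 2 _) (nrm_nonneg 2 _))
            (nrm_zl_le_one 2 _)).trans
            (mul_le_mul_of_nonneg_left (hval _ (O.basis l).2) (nrm_nonneg 2 _))
      _ < 1 * q := mul_lt_mul_of_pos_right (mem_conn_of_quad O hkill hτ hτM m _ (O.basis j).2) u.pos
      _ = q := one_mul q
  rw [nrm_add_eq_of_lt 2 (hlt.trans_le heq)]
  exact heq

end Fermat.Agent.RT.Two.Local
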