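import Fermat.Agent.RT.Two.Local.Defs

/-!
# The residual representation on inertia at two
-/

set_option autoImplicit false
set_option linter.style.haveILetI false
set_option linter.unusedSectionVars false

noncomputable section

namespace Fermat.Agent.RT.Two.Local

open Fermat.Agent.Deform Fermat.Agent.Arith Fermat.Agent.CFT.Tangent Fermat.Agent.CFT.Flat

theorem cube_roots : ∀ s : M2 (ZMod 2), s * s * s = 1 → s ≠ 1 → s * s + s + 1 = 0 := by decide

theorem theta_pow_eq {τ : GQ} (hτ : τ ∈ inG 2) (n : ℕ) : theta 2 (τ ^ n) = theta 2 τ ^ n := by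
  induction n with
  | zero => rw [pow_zero, pow_zero, theta_one]
  | succ n ih => rw [pow_succ', pow_succ', theta_mul 2 hτ, ih]

/-- A tame generator of inertia at two. -/
structure IsGen (τ : GQ) : Prop where
  mem : τ ∈ inG 2
  prim : IsPrimitiveRoot (theta 2 τ) (e₀ 2)
  gen : ∀ g ∈ inG 2, ∃ i : ℕ, (τ ^ i)⁻¹ * g ∈ tame 2

theorem exists_isGen : ∃ τ, IsGen τ := by
  obtain ⟨τ, h1, h2, h3⟩ := exists_tame_generator 2
  exact ⟨τ, h1, h2, h3⟩

theorem IsGen.cube_mem {τ : GQ} (h : IsGen τ) : τ ^ 3 ∈ tame 2 := by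
  rw [← theta_eq_one_iff 2 ((inG 2).pow_mem h.mem 3), theta_pow_eq h.mem]
  exact theta_pow 2 τ

/-- The fourth power of a generator is a generator. -/
theorem IsGen.pow_four {τ : GQ} (h : IsGen τ) : IsGen (τ ^ 4) := by
  refine ⟨(inG 2).pow_mem h.mem 4, ?_, fun g hg => ?_⟩
  · rw [theta_pow_eq h.mem]
    exact h.prim.pow_of_coprime 4 (by rw [show e₀ 2 = 3 from rfl]; norm_num)
  · obtain ⟨i, hi⟩ := h.gen g hg
    refine ⟨i, ?_⟩
    rw [← pow_mul, show ((τ ^ (4 * i))⁻¹ * g) = ((τ ^ 3) ^ i)⁻¹ * ((τ ^ i)⁻¹ * g) by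
      rw [← mul_assoc, ← mul_inv_rev, ← pow_mul, ← pow_add]; congr 3; ring]
    exact (tame 2).mul_mem ((tame 2).inv_mem ((tame 2).pow_mem h.cube_mem i)) hi

variable {r₀ : GQ →* M2 (ZMod 2)} (hr : IsSupersingularTwo r₀)

include hr

/-- The image of a generator has order three. -/
theorem IsSupersingularTwo.sq_add {τ : GQ} (h : IsGen τ) : r₀ τ * r₀ τ + r₀ τ + 1 = 0 := by
  refine cube_roots _ ?_ fun h1 => ?_
  · rw [← map_mul, ← map_mul, ← sq, ← pow_succ]
    exact hr.tame_one _ h.cube_mem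
  · obtain ⟨g, hg, hne⟩ := hr.inertia_ne
    obtain ⟨i, hi⟩ := h.gen g hg
    refine hne ?_
    rw [show g = τ ^ i * ((τ ^ i)⁻¹ * g) by group, map_mul, map_pow, h1, one_pow, one_mul,
      hr.tame_one _ hi]

/-- On inertia the image is generated by that of a generator. -/
theorem IsSupersingularTwo.eq_pow {τ : GQ} (h : IsGen τ) {g : GQ} (hg : g ∈ inG 2) :
    ∃ i : ℕ, r₀ g = r₀ τ ^ i := by
  obtain ⟨i, hi⟩ := h.gen g hg
  exact ⟨i, by rw [show g = τ ^ i * ((τ ^ i)⁻¹ * g) by group, map_mul, map_pow,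
    hr.tame_one _ hi, mul_one]⟩

omit hr

variable {k : Type} [Field k] [Algebra (ZMod 2) k]

theorem extRep_apply (g : GQ) (i j : Fin 2) :
    extRep k r₀ g i j = algebraMap (ZMod 2) k (r₀ g i j) := rfl

theorem extRep_eq_one {g : GQ} (h : r₀ g = 1) : extRep k r₀ g = 1 := by
  show RingHom.mapMatrix (algebraMap (ZMod 2) k) (r₀ g) = 1
  rw [h, map_one]

theorem extRep_inv_eq_one {g : GQ} (h : r₀ g = 1) : extRep k r₀ g⁻¹ = 1 := by
  have h' := CFT.Tangent.map_inv_mul (extRep k r₀) g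
  rwa [extRep_eq_one h, mul_one] at h'

include hr

theorem IsSupersingularTwo.sq_add_ext {τ : GQ} (h : IsGen τ) :
    extRep k r₀ τ * extRep k r₀ τ + extRep k r₀ τ + 1 = 0 := by
  have := congrArg (RingHom.mapMatrix (algebraMap (ZMod 2) k)) (hr.sq_add h)
  rwa [map_add, map_add, map_mul, map_one, map_zero] at this

/-- On tame inertia an adjoint cocycle is additive. -/
theorem IsSupersingularTwo.tame_add {b : GQ → M2 k} (hb : IsAdCocycle (extRep k r₀) b) {g h : GQ}
    (hg : g ∈ tame 2) : b (g * h) = b g + b h := by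
  rw [hb g h, extRep_eq_one (hr.tame_one g hg), extRep_inv_eq_one (hr.tame_one g hg), one_mul,
    mul_one, add_comm]

end Fermat.Agent.RT.Two.Local
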